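import Mathlib
import Fermat.Agent.S30.CSide.Degree
import Fermat.Agent.S18.K1Defs

set_option autoImplicit false
set_option linter.dupNamespace false
set_option linter.style.haveILetI false
set_option synthInstance.maxHeartbeats 400000

/-!
# S30 / E2.Deg: degree of the level-`N` function field over `E(j)` for EVERY subfield `E ⊆ ℚ̄`

`K1Defs.LE N E = laurentBaseChange E (modularFunctionFieldFull N)` is literally `CSide.FL E N`, and
the degree computation of `CSide.Degree` needs only a field `E` of characteristic zero with a ring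
homomorphism `E →+* ℂ` (no algebraic closedness).  Hence, for every field `E` with `ι : E →+* ℂ`,
in particular for every `E : IntermediateField ℚ ℚ̄`:

* `jE N E : LE N E` (underlying series `coeffEmb E jq`);
* `transcendental_jE : Transcendental E (jE N E)`;
* `finite_LE : FiniteDimensional E⟮jE N E⟯ (LE N E)`;
* `finrank_LE : Module.finrank E⟮jE N E⟯ (LE N E) = dedekindPsi N`.
-/

noncomputable section

open ModularCurve IntermediateField UpperHalfPlane
open scoped MatrixGroups

namespace Fermat.Agent.S30.E2Deg

open Fermat.Agent.S18.K1Defs Fermat.Agent.S30.CSide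
open Fermat.Agent.S24.HolH Fermat.Agent.S24.JFun Fermat.Agent.S24.Theta

local notation "Qb" => AlgebraicClosure ℚ

/-! ### Generic form: a field `E` of characteristic zero with `ι : E →+* ℂ` -/

section Generic

variable {E : Type} [Field E] [Algebra ℚ E]

/-- `j` is transcendental over `E` (via the analytic avatar: a polynomial vanishing at `j`
vanishes at every complex number, `j : ℍ → ℂ` being surjective). -/
theorem transcendental_jL_of_emb (ι : E →+* ℂ) (N : ℕ) : Transcendental E (jL E N) := by
  intro halg
  obtain ⟨P, hP0, hP⟩ := halg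
  -- evaluate in `A0L` and apply `thetaL`
  have h1 : Polynomial.aeval (jA0L E N) P = 0 := by
    apply Subtype.ext
    have h2 : ((Polynomial.aeval (jA0L E N) P : A0L E N) : FL E N)
        = Polynomial.aeval (jL E N) P := by
      have h3 := Polynomial.aeval_algHom_apply (A0L E N).val (jA0L E N) P
      exact h3.symm
    rw [h2, hP]
    rfl
  have h4 : ∀ τ : ℍ, Polynomial.eval (jFun τ) (P.map ι) = 0 := by
    intro τ
    have h5 := congrArg (fun x : A0L E N => (thetaL ι N x : ℍ → ℂ) τ) h1
    simp only [map_zero] at h5
    have h6 : (thetaL ι N (Polynomial.aeval (jA0L E N) P) : ℍ → ℂ) τ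
        = Polynomial.eval (jFun τ) (P.map ι) := by
      rw [Polynomial.aeval_def, Polynomial.eval₂_eq_sum_range, map_sum,
        Polynomial.eval_eq_sum_range, Polynomial.natDegree_map_eq_of_injective ι.injective]
      have hsum : ∀ (s : Finset ℕ) (g : ℕ → HolH),
          ((∑ i ∈ s, g i : HolH) : ℍ → ℂ) τ = ∑ i ∈ s, (g i : ℍ → ℂ) τ := by
        intro s g
        induction s using Finset.induction_on with
        | empty => simp
        | insert a s ha ih =>
          rw [Finset.sum_insert ha, Finset.sum_insert ha, ← ih]
          rfl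
      rw [hsum]
      refine Finset.sum_congr rfl fun i _ => ?_
      rw [map_mul, map_pow, thetaL_algebraMap, Polynomial.coeff_map]
      show ι (P.coeff i) * (thetaL ι N (jA0L E N) : ℍ → ℂ) τ ^ i = _
      rw [thetaL_jA0L_apply]
    rw [h6] at h5
    exact h5
  have h7 : P.map ι = 0 := by
    apply Polynomial.funext
    intro c
    obtain ⟨τ, rfl⟩ := jFun_surjective c
    rw [h4 τ, Polynomial.eval_zero]
  exact hP0 ((Polynomial.map_eq_zero_iff ι.injective).mp h7)

end Generic

/-! ### The instance `E ⊆ ℚ̄` -/

section Qbar

/-- The embedding of a subfield of `ℚ̄` into `ℂ`. -/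
def iotaE (E : IntermediateField ℚ Qb) : E →+* ℂ :=
  (iotaBar : Qb →+* ℂ).comp (algebraMap E Qb)

/-- The `j`-invariant as an element of the level-`N` function field over `E`. -/
def jE (N : ℕ) (E : IntermediateField ℚ Qb) : LE N E := jL E N

theorem coe_jE (N : ℕ) (E : IntermediateField ℚ Qb) :
    ((jE N E : LE N E) : LaurentSeries E) = coeffEmb E jq := rfl

/-- **E2.Deg (T)**: `j` is transcendental over `E`. -/
theorem transcendental_jE (N : ℕ) (E : IntermediateField ℚ Qb) : Transcendental E (jE N E) :=
  transcendental_jL_of_emb (iotaE E) N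

/-- **E2.Deg**: `LE N E` is finite over `E(j)`. -/
theorem finite_LE (N : ℕ) [NeZero N] (E : IntermediateField ℚ Qb) :
    FiniteDimensional E⟮jE N E⟯ (LE N E) :=
  finite_jL (iotaE E) N

instance instFiniteLE (N : ℕ) [NeZero N] (E : IntermediateField ℚ Qb) :
    FiniteDimensional E⟮jE N E⟯ (LE N E) := finite_LE N E

/-- **E2.Deg**: `[LE N E : E(j)] = ψ(N)` for every subfield `E ⊆ ℚ̄`. -/
theorem finrank_LE (N : ℕ) [NeZero N] (E : IntermediateField ℚ Qb) :
    Module.finrank E⟮jE N E⟯ (LE N E) = dedekindPsi N :=
  finrank_jL (iotaE E) N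

end Qbar

end Fermat.Agent.S30.E2Deg

end
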