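/-
S30 / E2.H, modular half (helper70).

For any field `E ⊇ ℚ` with an embedding `ι : E →+* ℂ` (e.g. a number field), the function field
`FL E N = LE N E` of `X₀(N)` over `E` is unramified over the `j`-line at every closed point
other than `j = 0` and `j = 1728`, in the elementwise trace discriminant form of
`Model.UnramAt`.  The embeddings are the Taylor expansions at a point `τ0` with `j(τ0) = c` a
root of `f`, composed with the coset representatives of `Γ₀(N) \ SL₂(ℤ)`.
-/
import Fermat.Agent.S30.E2.HorizGen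
import Fermat.Agent.S30.Ramif.TaylorEmb
import Fermat.Agent.S30.CSide.Degree

set_option autoImplicit false

noncomputable section

namespace Fermat.Agent.S30.E2.HorizTaylor

open UpperHalfPlane CongruenceSubgroup Polynomial IntermediateField ModularCurve
open Fermat.Agent.S24.HolH Fermat.Agent.S24.JHol Fermat.Agent.S24.JFun
open Fermat.Agent.S30.CSide Fermat.Agent.S30.Ramif.TaylorEmb
open scoped MatrixGroups

/-- Taylor expansion at `τ0` on the fraction field of the ring of holomorphic functions. -/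
def tayFrac (τ0 : ℍ) : FractionRing HolH →+* LaurentSeries ℂ :=
  IsFractionRing.lift (A := HolH) (g := (HahnSeries.ofPowerSeries ℤ ℂ).comp (taylorHol τ0))
    (HahnSeries.ofPowerSeries_injective.comp (taylorHol_injective τ0))

theorem tayFrac_algebraMap (τ0 : ℍ) (h : HolH) :
    tayFrac τ0 (algebraMap HolH (FractionRing HolH) h) =
      HahnSeries.ofPowerSeries ℤ ℂ (taylorHol τ0 h) :=
  IsFractionRing.lift_algebraMap _ h

variable {E : Type} [Field E] [Algebra ℚ E]

/-- The Taylor embeddings of `FL E N` into `ℂ((X))`. -/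
def embE (ι : E →+* ℂ) (N : ℕ) (τ0 : ℍ) (x : SL(2, ℤ) ⧸ Gamma0 N) :
    FL E N →+* LaurentSeries ℂ :=
  (tayFrac τ0).comp (cosetEmbL ι N x)

theorem embE_injective (ι : E →+* ℂ) (N : ℕ) [NeZero N] (τ0 : ℍ) :
    Function.Injective (embE ι N τ0) := by
  intro x y h
  apply cosetEmbL_injective ι N
  refine RingHom.ext fun a => ?_
  apply (tayFrac τ0).injective
  exact congrArg (fun ρ : FL E N →+* LaurentSeries ℂ => ρ a) h

theorem embE_algebraMap (ι : E →+* ℂ) (N : ℕ) (τ0 : ℍ) (x : SL(2, ℤ) ⧸ Gamma0 N) (c : E) :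
    embE ι N τ0 x (algebraMap E (FL E N) c) = HahnSeries.C (ι c) := by
  have h : algebraMap E (FL E N) c = ((algebraMap E (A0L E N) c : A0L E N) : FL E N) := rfl
  rw [embE, RingHom.comp_apply, h, cosetEmbL_coe,
    cosetHom_of_invariant (thetaL ι N) (fun g => compSL_thetaL_algebraMap ι N g c) x,
    thetaL_algebraMap, tayFrac_algebraMap, taylorHol_algebraMap, HahnSeries.ofPowerSeries_C]

theorem thetaL_jA0L_eq (ι : E →+* ℂ) (N : ℕ) : thetaL ι N (jA0L E N) = jHol :=
  Subtype.ext (thetaL_jA0L ι N)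

theorem embE_jL (ι : E →+* ℂ) (N : ℕ) (τ0 : ℍ) (x : SL(2, ℤ) ⧸ Gamma0 N) :
    embE ι N τ0 x (jL E N) = HahnSeries.ofPowerSeries ℤ ℂ (taylorHol τ0 jHol) := by
  have h : jL E N = ((jA0L E N : A0L E N) : FL E N) := rfl
  rw [embE, RingHom.comp_apply, h, cosetEmbL_coe,
    cosetHom_of_invariant (thetaL ι N) (fun g => compSL_thetaL_jA0L ι N g) x,
    thetaL_jA0L_eq, tayFrac_algebraMap]

/-- The linear coefficient of the Taylor expansion of `j` at a point where `j - c` vanishes
simply is nonzero. -/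
theorem coeff_one_taylorHol_jHol {c : ℂ} {τ0 : ℍ}
    (hord : ordZ τ0 (jHol - algebraMap ℂ HolH c) = 1) :
    PowerSeries.coeff 1 (taylorHol τ0 jHol) ≠ 0 := by
  have hne := jHol_sub_ne_zero c
  have h2 : ordAt τ0 (jHol - algebraMap ℂ HolH c) = 1 := by
    have h3 := ordAt_ne_top (τ0 := τ0) hne
    rw [ordZ] at hord
    have h4 : (ordAt τ0 (jHol - algebraMap ℂ HolH c)).toNat = 1 := by
      exact_mod_cast hord
    rw [← ENat.natCast_toNat h3, h4]
    rfl
  have h5 : (taylorHol τ0 (jHol - algebraMap ℂ HolH c)).order = (1 : ℕ) := by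
    rw [order_taylorHol, h2]
    rfl
  have h6 := (PowerSeries.order_eq_nat.mp h5).1
  rw [map_sub, taylorHol_algebraMap, map_sub, PowerSeries.coeff_C] at h6
  simpa using h6

/-- **E2.H, literal form.** `FL E N / E(j)` is unramified at the closed point `f(j) = 0` of the
`j`-line, for every irreducible `f ∈ E[X]` with `f(0) ≠ 0` and `f(1728) ≠ 0`.  The conclusion is
the literal body of `Model.UnramAt E⟮j⟯ (Algebra.adjoin E {j}) (aeval j f)`. -/
theorem unramAt_jL (ι : E →+* ℂ) (N : ℕ) [NeZero N] (f : E[X]) (hf : Irreducible f)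
    (h0 : f.eval 0 ≠ 0) (h1 : f.eval 1728 ≠ 0) :
    ∃ b : Fin (Module.finrank E⟮jL E N⟯ (FL E N)) → FL E N,
      (∀ i, IsIntegral (Algebra.adjoin E {jL E N}) (b i)) ∧
      ∃ d : FL E N, d ∈ Algebra.adjoin E {jL E N} ∧
        ((Algebra.traceMatrix E⟮jL E N⟯ b).det : FL E N) = d ∧
        ∀ c : FL E N, c ∈ Algebra.adjoin E {jL E N} → d ≠ aeval (jL E N) f * c := by
  have : CharZero E := (RingHom.charZero_iff ι.injective).mpr inferInstance
  have : FiniteDimensional E⟮jL E N⟯ (FL E N) := finite_jL ι N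
  have : Finite (SL(2, ℤ) ⧸ Gamma0 N) :=
    Fermat.Agent.S24.GenusNat.finite_quotient N (NeZero.ne N)
  have key : ∀ a : E, (f.map ι).eval (ι a) = ι (f.eval a) := fun a => by
    rw [eval_map, eval₂_at_apply]
  obtain ⟨c, hc⟩ := IsAlgClosed.exists_root (f.map ι)
    (by rw [degree_map]; exact (degree_pos_of_irreducible hf).ne')
  have hc0 : c ≠ 0 := by
    rintro rfl
    apply h0
    apply ι.injective
    rw [← key, map_zero]
    exact hc
  have hc1 : c ≠ 1728 := by
    rintro rfl
    apply h1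
    apply ι.injective
    rw [← key, map_ofNat, map_zero]
    exact hc
  obtain ⟨τ0, hτ0, hord⟩ := exists_ordZ_jHol_sub_eq_one hc0 hc1
  refine Fermat.Agent.S30.E2.HorizGen.unramAt_of_embeddings (jL E N) ι (taylorHol τ0 jHol)
    (coeff_one_taylorHol_jHol hord) ?_ (embE ι N τ0) (embE_injective ι N τ0)
    (embE_algebraMap ι N τ0) (embE_jL ι N τ0) f hf ?_
  · rw [Fermat.Agent.S24.Comb.card_quotient_Gamma0 N, finrank_jL ι N]
  · rw [constantCoeff_taylorHol, jHol_apply, hτ0]
    exact hc

end Fermat.Agent.S30.E2.HorizTaylor
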