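/-
S30 / E2.H (tasks#255, helper70): hypothesis (ii) of the MODEL THEOREM for `u = j`.

`Model.HorizUnram S j` for the level-`N` function field `FL E N = LE N E` over any field `E ⊇ ℚ`
with an embedding into `ℂ` (in particular every `E ⊆ ℚ̄`), as soon as `S ∋ 0, 1728`.
Proof by Taylor expansions (`E2.HorizTaylor.unramAt_jL`); independent of the places proof
`Ramif.horizUnram_j`, and without transcendence / finiteness hypotheses.
-/
import Fermat.Agent.S30.Model.Main
import Fermat.Agent.S30.E2.HorizTaylor

set_option autoImplicit false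

noncomputable section

namespace Fermat.Agent.S30.E2.Horiz

open Polynomial ModularCurve
open Fermat.Agent.S30.CSide

variable {E : Type} [Field E] [Algebra ℚ E]

/-- **E2.H** for `u = j`, any `S ∋ 0, 1728`. -/
theorem horizUnram (ι : E →+* ℂ) (N : ℕ) [NeZero N] {O : Type*} [CommRing O] [Algebra O E]
    (S : Finset O) (h0 : ∃ c ∈ S, algebraMap O E c = 0)
    (h1728 : ∃ c ∈ S, algebraMap O E c = 1728) :
    Fermat.Agent.S30.Model.HorizUnram (E := E) S (jL E N) := by
  intro f hf hS
  obtain ⟨c0, hc0S, hc0⟩ := h0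
  obtain ⟨c1, hc1S, hc1⟩ := h1728
  have key : ∀ a : E, f.eval a = 0 → Associated f (X - C a) := fun a ha =>
    ((irreducible_X_sub_C a).associated_of_dvd hf (dvd_iff_isRoot.mpr ha)).symm
  exact Fermat.Agent.S30.E2.HorizTaylor.unramAt_jL ι N f hf
    (fun h => hS c0 hc0S (by rw [hc0]; exact key 0 h))
    (fun h => hS c1 hc1S (by rw [hc1]; exact key 1728 h))

/-- The same for any element `u` whose `q`-expansion is that of `j`. -/
theorem horizUnram_of_coe (ι : E →+* ℂ) (N : ℕ) [NeZero N] {O : Type*} [CommRing O]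
    [Algebra O E] (u : FL E N) (hu : (u : LaurentSeries E) = coeffEmb E jq)
    (S : Finset O) (h0 : ∃ c ∈ S, algebraMap O E c = 0)
    (h1728 : ∃ c ∈ S, algebraMap O E c = 1728) :
    Fermat.Agent.S30.Model.HorizUnram (E := E) S u := by
  have h : u = jL E N := Subtype.ext hu
  rw [h]
  exact horizUnram ι N S h0 h1728

set_option synthInstance.maxHeartbeats 400000 in
set_option maxHeartbeats 1000000 in
/-- **E2.H** over an intermediate field `E` of `ℚ̄ / ℚ`. -/
theorem horizUnram_intermediate (N : ℕ) [NeZero N]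
    (E : IntermediateField ℚ (AlgebraicClosure ℚ)) {O : Type*} [CommRing O] [Algebra O E]
    (u : ↥(laurentBaseChange E (modularFunctionFieldFull N)))
    (hu : (u : LaurentSeries E) = coeffEmb E jq)
    (S : Finset O) (h0 : ∃ c ∈ S, algebraMap O E c = 0)
    (h1728 : ∃ c ∈ S, algebraMap O E c = 1728) :
    Fermat.Agent.S30.Model.HorizUnram (E := E) S u :=
  horizUnram_of_coe
    (Fermat.Agent.S24.Theta.iotaBar.comp (algebraMap E (AlgebraicClosure ℚ))) N u hu S h0 h1728

end Fermat.Agent.S30.E2.Horiz
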