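/-
S30 / E2 (helper148): GENERIC bridge "modular polynomial with nonzero discriminant modulo `π`
+ degree-many embeddings  ⇒  `Model.UnramAt` at the vertical prime `π`"
(provider form of hypothesis (i) of the Model theorem).  The conclusions are stated as the
unfolded body of `Model.UnramAt` / `Model.GaussUnram`, so that this file does not import the
skeleton `Model/Main.lean`; consumers close their goal with `exact`.
-/
import Mathlib
import Fermat.Agent.S30.Model.EmbDiscVert
import Fermat.Agent.S30.ModDisc

set_option autoImplicit false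
set_option linter.deprecated false

noncomputable section

namespace Fermat.Agent.S30.E2.UnramOfEmb

open Polynomial

/-! ### Trace matrices through embeddings -/

section TraceMatrix

variable {R C Ω : Type*} [CommRing R] [CommRing C] [Algebra R C] [Field Ω]
  {ι : Type*} [Fintype ι] [DecidableEq ι] {κ : Type*} [Fintype κ] [DecidableEq κ]

/-- If `C` is free over `R` with a basis indexed by `ι` and there are `ι`-many pairwise distinct
ring homs `σ i : C →+* Ω` into a field, all restricting to `φ` on `R`, then for any family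
`y : κ → C` with `κ ≃ ι` the image under `φ` of the determinant of its trace matrix is the square
of the determinant of the matrix `(σ_i (y_k))`. -/
theorem map_det_traceMatrix_eq (b : Module.Basis ι R C) (φ : R →+* Ω) (σ : ι → C →+* Ω)
    (hσ : ∀ i, (σ i).comp (algebraMap R C) = φ) (hinj : Function.Injective σ) (e : κ ≃ ι)
    (y : κ → C) :
    φ (Algebra.traceMatrix R y).det =
      (Matrix.of fun k k' => σ (e k) (y k')).det *
        (Matrix.of fun k k' => σ (e k) (y k')).det := by
  classical
  have hinj' : Function.Injective fun i => (RingHom.id Ω).comp (σ i) := by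
    intro i i' h
    apply hinj
    simpa using h
  set M : Matrix κ κ Ω := Matrix.of fun k k' => σ (e k) (y k') with hM
  have hmat : (Algebra.traceMatrix R y).map φ = M.transpose * M := by
    apply Matrix.ext
    intro i j
    rw [Matrix.map_apply, Algebra.traceMatrix_apply, Algebra.traceForm_apply,
      Fermat.Agent.S30.Model.EmbDiscVert.map_trace_eq_sum b φ (RingHom.id Ω) σ hσ hinj',
      Matrix.mul_apply, ← Equiv.sum_comp e]
    refine Finset.sum_congr rfl (fun l _ => ?_)
    rw [Matrix.transpose_apply, hM, Matrix.of_apply, Matrix.of_apply, map_mul]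
  rw [RingHom.map_det, RingHom.mapMatrix_apply, hmat, Matrix.det_mul, Matrix.det_transpose]

end TraceMatrix

/-! ### The generic bridge -/

section Generic

variable {E F Ω : Type*} [Field E] [Field F] [Algebra E F] [Field Ω]
  {O : Type*} [CommRing O] [Algebra O E] [Algebra O F] [IsScalarTower O E F]
  {Q : Type*} [Fintype Q] [DecidableEq Q]

omit [Algebra O E] [IsScalarTower O E F] in
theorem det_traceMatrix_cast (K : IntermediateField E F) {n m : ℕ} (h : n = m) (y : ℕ → F) :
    (Algebra.traceMatrix K (fun i : Fin n => y i)).det =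
      (Algebra.traceMatrix K (fun i : Fin m => y i)).det := by
  subst h
  rfl

/-- **Generic bridge.** `F / E(u)` finite of degree `n`; `θ ∈ F` a root of a monic
`P ∈ O[u][Y]` of degree `n`; `n` ring homs `σ x : F →+* Ω` into a field which agree on `E` and
on `u` and take pairwise distinct values at `θ`; `u` transcendental over `O`; and the
discriminant of `P` (power basis of `O[X][Y]/(P)`) is nonzero modulo a ring hom `f : O →+* κ`
killing `π`.  Then `1, θ, …, θ^(n-1)` witness `Model.UnramAt E(u) O[u] π` (the conclusion is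
literally the body of `Fermat.Agent.S30.Model.UnramAt (IntermediateField.adjoin E {u})
(Algebra.adjoin O {u}) (algebraMap O F π)`, stated without importing the skeleton). -/
theorem unramAt_of_embeddings (u θ : F) [FiniteDimensional (IntermediateField.adjoin E {u}) F]
    (P : Polynomial (Polynomial O)) (hP : P.Monic)
    (hroot : P.eval₂ (Polynomial.eval₂RingHom (algebraMap O F) u) θ = 0)
    (hdeg : P.natDegree = Module.finrank (IntermediateField.adjoin E {u}) F)
    (hcard : Fintype.card Q = Module.finrank (IntermediateField.adjoin E {u}) F)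
    (σ : Q → F →+* Ω) (hσE : ∀ x y (c : E), σ x (algebraMap E F c) = σ y (algebraMap E F c))
    (hσu : ∀ x y, σ x u = σ y u) (hσθ : Function.Injective fun x => σ x θ)
    (htr : Function.Injective (Polynomial.eval₂RingHom (algebraMap O F) u))
    (π : O) {κ : Type*} [Field κ] (f : O →+* κ) (hπ : f π = 0)
    (hdisc : (Fermat.Agent.S30.ModDisc.discrOf hP).map f ≠ 0) :
    ∃ b : Fin (Module.finrank (IntermediateField.adjoin E {u}) F) → F,
      (∀ i, IsIntegral (Algebra.adjoin O {u}) (b i)) ∧
      ∃ d : F, d ∈ Algebra.adjoin O {u} ∧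
        ((Algebra.traceMatrix (IntermediateField.adjoin E {u}) b).det : F) = d ∧
        ∀ c : F, c ∈ Algebra.adjoin O {u} → d ≠ algebraMap O F π * c := by
  classical
  set K : IntermediateField E F := IntermediateField.adjoin E {u} with hK
  set φ₀ : Polynomial O →+* F := Polynomial.eval₂RingHom (algebraMap O F) u with hφ₀
  have hpos : 0 < Module.finrank K F := Module.finrank_pos
  have hne : Nonempty Q := Fintype.card_pos_iff.mp (by rw [hcard]; exact hpos)
  obtain ⟨x₀⟩ := hne
  -- all embeddings agree on `K`
  have hagree : ∀ x, ∀ z ∈ K, σ x z = σ x₀ z := by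
    intro x z hz
    induction hz using IntermediateField.adjoin_induction with
    | mem z hz => rw [Set.mem_singleton_iff.mp hz]; exact hσu x x₀
    | algebraMap c => exact hσE x x₀ c
    | add a b _ _ ha hb => rw [map_add, map_add, ha, hb]
    | inv a _ ha => rw [map_inv₀, map_inv₀, ha]
    | mul a b _ _ ha hb => rw [map_mul, map_mul, ha, hb]
  set φK : K →+* Ω := (σ x₀).comp (algebraMap K F) with hφK
  have hσK : ∀ x, (σ x).comp (algebraMap K F) = φK := fun x =>
    RingHom.ext fun k => hagree x (k : F) k.2
  set φ' : Polynomial O →+* Ω := (σ x₀).comp φ₀ with hφ'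
  have hσφ : ∀ x, (σ x).comp φ₀ = φ' := by
    intro x
    refine Polynomial.ringHom_ext (fun c => ?_) ?_
    · simp only [RingHom.comp_apply, hφ', hφ₀, Polynomial.coe_eval₂RingHom, Polynomial.eval₂_C]
      rw [IsScalarTower.algebraMap_apply O E F]
      exact hσE x x₀ _
    · simp only [RingHom.comp_apply, hφ', hφ₀, Polynomial.coe_eval₂RingHom, Polynomial.eval₂_X]
      exact hσu x x₀
  -- the roots in `Ω`
  have hrootΩ : ∀ x, P.eval₂ φ' (σ x θ) = 0 := by
    intro x
    have h := Polynomial.hom_eval₂ P φ₀ (σ x) θ
    rw [hroot, map_zero, hσφ x] at h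
    exact h.symm
  set pb := AdjoinRoot.powerBasis' hP with hpb
  have hdim : pb.dim = P.natDegree := AdjoinRoot.powerBasis'_dim hP
  let σ' : Q → AdjoinRoot P →+* Ω := fun x => AdjoinRoot.lift φ' (σ x θ) (hrootΩ x)
  have hσ' : ∀ x, (σ' x).comp (algebraMap (Polynomial O) (AdjoinRoot P)) = φ' := fun x =>
    AdjoinRoot.lift_comp_of (hrootΩ x)
  have hσ'inj : Function.Injective σ' := by
    intro x y h
    have h1 := congrArg (fun g : AdjoinRoot P →+* Ω => g (AdjoinRoot.root P)) h
    simp only [σ', AdjoinRoot.lift_root] at h1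
    exact hσθ h1
  have hσinj : Function.Injective σ := by
    intro x y h
    exact hσθ (congrArg (fun g : F →+* Ω => g θ) h)
  have hcard₂ : Fintype.card (Fin pb.dim) = Fintype.card Q := by
    rw [Fintype.card_fin, hdim, hdeg, hcard]
  have hcard₁ : Fintype.card (Fin (Module.finrank K F)) = Fintype.card Q := by
    rw [Fintype.card_fin, hcard]
  let e : Fin pb.dim ≃ Q := Fintype.equivOfCardEq hcard₂
  let e₁ : Fin (Module.finrank K F) ≃ Q := Fintype.equivOfCardEq hcard₁
  -- the two determinant formulas
  have h2 := map_det_traceMatrix_eq (pb.basis.reindex e) φ' σ' hσ' hσ'inj e (fun k => pb.basis k)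
  have h1 := map_det_traceMatrix_eq ((Module.finBasis K F).reindex e₁) φK σ hσK hσinj e
    (fun k : Fin pb.dim => θ ^ (k : ℕ))
  have hM : (Matrix.of fun k k' => σ' (e k) (pb.basis k') : Matrix (Fin pb.dim) (Fin pb.dim) Ω) =
      Matrix.of fun (k k' : Fin pb.dim) => σ (e k) (θ ^ (k' : ℕ)) := by
    apply Matrix.ext
    intro k k'
    have hgen : pb.gen = AdjoinRoot.root P := AdjoinRoot.powerBasis'_gen hP
    rw [Matrix.of_apply, Matrix.of_apply, PowerBasis.coe_basis, hgen, map_pow, map_pow]
    simp only [σ', AdjoinRoot.lift_root]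
  rw [hM, ← h1] at h2
  -- `d = φ₀ (discr P)`
  have hd : (((Algebra.traceMatrix K (fun k : Fin pb.dim => θ ^ (k : ℕ))).det : K) : F) =
      φ₀ (Fermat.Agent.S30.ModDisc.discrOf hP) := by
    apply (σ x₀).injective
    have h3 : φ' (Fermat.Agent.S30.ModDisc.discrOf hP) =
        φK (Algebra.traceMatrix K (fun k : Fin pb.dim => θ ^ (k : ℕ))).det := h2
    exact h3.symm
  have hdimK : Module.finrank K F = pb.dim := by rw [hdim, hdeg]
  -- integrality of `θ`
  have hint : IsIntegral (Algebra.adjoin O {u}) θ := by
    let uD : Algebra.adjoin O {u} := ⟨u, Algebra.self_mem_adjoin_singleton O u⟩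
    let φD : Polynomial O →+* Algebra.adjoin O {u} :=
      Polynomial.eval₂RingHom (algebraMap O (Algebra.adjoin O {u})) uD
    have hcomp : (algebraMap (Algebra.adjoin O {u}) F).comp φD = φ₀ := by
      refine Polynomial.ringHom_ext (fun c => ?_) ?_
      · simp only [RingHom.comp_apply, φD, hφ₀, Polynomial.coe_eval₂RingHom, Polynomial.eval₂_C]
        rfl
      · simp only [RingHom.comp_apply, φD, hφ₀, Polynomial.coe_eval₂RingHom, Polynomial.eval₂_X]
        rfl
    refine ⟨P.map φD, hP.map φD, ?_⟩
    rw [Polynomial.eval₂_map, hcomp]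
    exact hroot
  refine ⟨fun i => θ ^ (i : ℕ), fun i => hint.pow _, φ₀ (Fermat.Agent.S30.ModDisc.discrOf hP),
    ?_, ?_, ?_⟩
  · rw [Algebra.adjoin_singleton_eq_range_aeval]
    exact ⟨Fermat.Agent.S30.ModDisc.discrOf hP, rfl⟩
  · rw [det_traceMatrix_cast K hdimK (fun i => θ ^ i)]
    exact hd
  · intro c hc hcon
    rw [Algebra.adjoin_singleton_eq_range_aeval] at hc
    obtain ⟨c₀, rfl⟩ := hc
    have h4 : φ₀ (Fermat.Agent.S30.ModDisc.discrOf hP) = φ₀ (Polynomial.C π * c₀) := by
      rw [hcon, map_mul]
      congr 1
      simp only [hφ₀, Polynomial.coe_eval₂RingHom, Polynomial.eval₂_C]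
    have h5 := htr h4
    apply hdisc
    rw [h5, Polynomial.map_mul, Polynomial.map_C, hπ, Polynomial.C_0, zero_mul]

end Generic

end Fermat.Agent.S30.E2.UnramOfEmb
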