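/-
S30 / E2.G (helper148): hypothesis (i) of the Model theorem, provider form `Model.GaussUnram`,
for the modular function field `FL E N = E(j(q^d) : d ∣ N) ⊆ E((q))` and `u = j`.
(Conclusions are stated as the unfolded body of `Model.GaussUnram`; the skeleton file
`Model/Main.lean` is not imported.)

Inputs: the modular polynomial with discriminant nonzero after every reduction (`ModDisc`, from
the landed S28 cusp expansions), the degree `[FL E N : E(j)] = ψ(N)` and the coset embeddings
(`CSide.Degree`, from S24), and the generic bridge `UnramOfEmb.unramAt_of_embeddings`.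
-/
import Mathlib
import Fermat.Agent.S30.E2.UnramOfEmb
import Fermat.Agent.S30.CSide.Degree

set_option autoImplicit false
set_option linter.deprecated false

noncomputable section

namespace Fermat.Agent.S30.E2.GaussUnram

open ModularCurve CongruenceSubgroup Fermat.Agent.S30.CSide Fermat.Agent.S28.Defs
open Fermat.Agent.S24.HolH
open scoped MatrixGroups

/-! ### The elements `j`, `j(q^N)` and their `q`-expansions -/

section Basics

variable (E : Type) [Field E] [Algebra ℚ E] (N : ℕ) [NeZero N]

/-- `θ = j(q^N)` as an element of the function field `FL E N`. -/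
def thetaE : FL E N := ((genL E N N dvd_rfl : A0L E N) : FL E N)

omit [NeZero N] in
theorem coe_jL_eq : ((jL E N : FL E N) : LaurentSeries E) = jqModC E := by
  rw [coe_jL]
  show coeffMap (algebraMap ℚ E) (jqModC ℚ) = jqModC E
  exact coeffMap_jqModC _

theorem coe_thetaE_eq : ((thetaE E N : FL E N) : LaurentSeries E) = qE E N (jqModC E) := by
  show coeffEmb E (qExpand ℚ N jq) = _
  have h : qExpand ℚ N jq = qE ℚ N (jqModC ℚ) := by
    rw [Fermat.Agent.S28.Orders.qE_of_ne_zero ℚ (NeZero.ne N)]
    rfl
  rw [h]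
  show coeffMap (algebraMap ℚ E) (qE ℚ N (jqModC ℚ)) = _
  rw [Fermat.Agent.S28.Formal.coeffMap_qE, coeffMap_jqModC]

variable {O : Type*} [CommRing O] [Algebra O E] [Algebra O (FL E N)]
  [IsScalarTower O E (FL E N)]

/-- The coercion `FL E N → E((q))` as a ring hom. -/
def valHom : FL E N →+* LaurentSeries E :=
  ((laurentBaseChange E (modularFunctionFieldFull N)).val : FL E N →+* LaurentSeries E)

omit [NeZero N] in
theorem valHom_apply (x : FL E N) : valHom E N x = (x : LaurentSeries E) := rfl

omit [NeZero N] in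
theorem valHom_injective : Function.Injective (valHom E N) := Subtype.val_injective

omit [NeZero N] in
/-- `p ↦ p(j)` on `O[X]`, read in `E((q))`. -/
theorem valHom_comp_eval₂ :
    (valHom E N).comp (Polynomial.eval₂RingHom (algebraMap O (FL E N)) (jL E N)) =
      (coeffMap (algebraMap O E)).comp
        (Polynomial.eval₂RingHom (HahnSeries.C : O →+* LaurentSeries O) (jqModC O)) := by
  refine Polynomial.ringHom_ext (fun c => ?_) ?_
  · simp only [RingHom.comp_apply, Polynomial.coe_eval₂RingHom, Polynomial.eval₂_C,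
      Fermat.Agent.S28.Formal.coeffMap_C]
    rw [IsScalarTower.algebraMap_apply O E (FL E N)]
    show algebraMap E (LaurentSeries E) (algebraMap O E c) = _
    rw [algebraMap_laurentSeries_eq_single]
    rfl
  · simp only [RingHom.comp_apply, Polynomial.coe_eval₂RingHom, Polynomial.eval₂_X,
      coeffMap_jqModC]
    exact coe_jL_eq E N

omit [NeZero N] in
/-- `p ↦ p(j)` is injective on `O[X]` (`j` is transcendental over `O`). -/
theorem eval₂_jL_injective (hO : Function.Injective (algebraMap O E)) :
    Function.Injective (Polynomial.eval₂RingHom (algebraMap O (FL E N)) (jL E N)) := by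
  intro p p' h
  have h1 := congrArg (valHom E N) h
  rw [← RingHom.comp_apply, ← RingHom.comp_apply, valHom_comp_eval₂] at h1
  simp only [RingHom.comp_apply, Polynomial.coe_eval₂RingHom,
    Fermat.Agent.S28.Formal.coeffMap_eval₂_C, coeffMap_jqModC] at h1
  have h2 : Fermat.Agent.S30.ModSep.phi E 1 (p.map (algebraMap O E)) =
      Fermat.Agent.S30.ModSep.phi E 1 (p'.map (algebraMap O E)) := by
    simp only [Fermat.Agent.S30.ModSep.phi, Polynomial.coe_eval₂RingHom,
      Fermat.Agent.S28.Orders.qE_one]
    exact h1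
  have h3 := Fermat.Agent.S30.ModSep.phi_injective (κ := E) (N := 1) h2
  exact Polynomial.map_injective _ hO h3

/-- The root property of a modular polynomial, transported into `FL E N`. -/
theorem eval₂_thetaE_eq_zero (P : Polynomial (Polynomial O))
    (hroot : P.eval₂ (Polynomial.eval₂RingHom (HahnSeries.C : O →+* LaurentSeries O) (jqModC O))
      (qE O N (jqModC O)) = 0) :
    P.eval₂ (Polynomial.eval₂RingHom (algebraMap O (FL E N)) (jL E N)) (thetaE E N) = 0 := by
  apply valHom_injective E N
  rw [Polynomial.hom_eval₂, valHom_comp_eval₂, map_zero, valHom_apply, coe_thetaE_eq]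
  have h := congrArg (coeffMap (algebraMap O E)) hroot
  rw [Polynomial.hom_eval₂, map_zero, Fermat.Agent.S28.Formal.coeffMap_qE, coeffMap_jqModC] at h
  exact h

end Basics

/-! ### The coset embeddings separate the conjugates of `j(q^N)` -/

section Emb

variable {E : Type} [Field E] [Algebra ℚ E] (ι : E →+* ℂ) (N : ℕ) [NeZero N]

theorem cosetEmbL_thetaE_injective :
    Function.Injective fun x : SL(2, ℤ) ⧸ Gamma0 N => cosetEmbL ι N x (thetaE E N) := by
  intro x y hxy
  have h0 : cosetHom (thetaL ι N) x (genL E N N dvd_rfl) =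
      cosetHom (thetaL ι N) y (genL E N N dvd_rfl) := by
    have h1 : cosetEmbL ι N x ((genL E N N dvd_rfl : A0L E N) : FL E N) =
        cosetEmbL ι N y ((genL E N N dvd_rfl : A0L E N) : FL E N) := hxy
    rw [cosetEmbL_coe, cosetEmbL_coe] at h1
    exact IsFractionRing.injective HolH (FractionRing HolH) h1
  have hθ : ∀ γ ∈ Gamma0 N, ∀ a : A0L E N, compSL γ (thetaL ι N a) = thetaL ι N a :=
    fun γ hγ a => compSL_thetaL_of_mem_Gamma0 hγ a
  obtain ⟨g, rfl⟩ := QuotientGroup.mk_surjective x
  obtain ⟨h, rfl⟩ := QuotientGroup.mk_surjective y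
  rw [cosetHom_mk _ hθ, cosetHom_mk _ hθ] at h0
  have h2 : compSL (g⁻¹ * h) (thetaL ι N (genL E N N dvd_rfl)) =
      thetaL ι N (genL E N N dvd_rfl) := by
    rw [compSL_mul, h0, ← compSL_mul, inv_mul_cancel, compSL_one]
  exact QuotientGroup.eq.mpr (mem_Gamma0_of_compSL_thetaL_genL ι N _ h2)

end Emb

/-! ### Hypothesis (i) for `u = j` -/

section Main

variable {E : Type} [Field E] [Algebra ℚ E] [CharZero E] (N : ℕ) [NeZero N]
  {O : Type*} [CommRing O] [Algebra O E] [Algebra O (FL E N)] [IsScalarTower O E (FL E N)]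

/-- **E2.G, general form.** `O ⊆ E` a subring containing a primitive `N`-th root of unity and
`1/N`, `f : O →+* κ` a ring hom to a field with `f π = 0`.  Then the powers of `θ = j(q^N)`
witness `Model.UnramAt E(j) O[j] π` for the modular function field `FL E N`. -/
theorem unramAt_jL (ι : E →+* ℂ) (hO : Function.Injective (algebraMap O E)) {ζ₀ : O}
    (hζ₀ : IsPrimitiveRoot ζ₀ N) (hN : IsUnit (N : O)) (π : O) {κ : Type*} [Field κ]
    (f : O →+* κ) (hπ : f π = 0) :
    ∃ b : Fin (Module.finrank (IntermediateField.adjoin E {jL E N}) (FL E N)) → FL E N,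
      (∀ i, IsIntegral (Algebra.adjoin O {jL E N}) (b i)) ∧
      ∃ d : FL E N, d ∈ Algebra.adjoin O {jL E N} ∧
        ((Algebra.traceMatrix (IntermediateField.adjoin E {jL E N}) b).det : FL E N) = d ∧
        ∀ c : FL E N, c ∈ Algebra.adjoin O {jL E N} → d ≠ algebraMap O (FL E N) π * c := by
  classical
  have hfinQ : Finite (SL(2, ℤ) ⧸ Gamma0 N) :=
    Fermat.Agent.S24.GenusNat.finite_quotient N (NeZero.ne N)
  let _ : Fintype (SL(2, ℤ) ⧸ Gamma0 N) := Fintype.ofFinite _
  have hfin : Module.Finite (IntermediateField.adjoin E {jL E N}) (FL E N) := finite_jL ι N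
  have hrank : Module.finrank (IntermediateField.adjoin E {jL E N}) (FL E N) = dedekindPsi N :=
    finrank_jL ι N
  have hcardQ : Fintype.card (SL(2, ℤ) ⧸ Gamma0 N) = dedekindPsi N := by
    rw [← Nat.card_eq_fintype_card]
    exact Fermat.Agent.S24.Comb.card_quotient_Gamma0 N
  have hι : Function.Injective (ι.comp (algebraMap O E)) := ι.injective.comp hO
  obtain ⟨P, hP, hdeg, hroot, -, hdisc⟩ :=
    Fermat.Agent.S30.ModDisc.exists_modular_poly_discr N (ι.comp (algebraMap O E)) hι hζ₀ hN
  have hdeg' : P.natDegree = Module.finrank (IntermediateField.adjoin E {jL E N}) (FL E N) := by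
    rw [hdeg, hrank, ← hcardQ, ← Nat.card_eq_fintype_card]
    rfl
  exact Fermat.Agent.S30.E2.UnramOfEmb.unramAt_of_embeddings (jL E N) (thetaE E N) P hP
    (eval₂_thetaE_eq_zero E N P hroot) hdeg' (by rw [hcardQ, hrank])
    (cosetEmbL ι N) (cosetEmbL_algebraMap ι N) (cosetEmbL_jL ι N)
    (cosetEmbL_thetaE_injective ι N) (eval₂_jL_injective E N hO) π f hπ (hdisc κ f)

/-- **E2.G**: hypothesis (i) of the Model theorem in provider form, for `u = j`: the conclusion
is literally (definitionally) `Fermat.Agent.S30.Model.GaussUnram (E := E) π (jL E N)`. -/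
theorem gaussUnram_jL (ι : E →+* ℂ) (hO : Function.Injective (algebraMap O E)) {ζ₀ : O}
    (hζ₀ : IsPrimitiveRoot ζ₀ N) (hN : IsUnit (N : O)) (π : O) {κ : Type*} [Field κ]
    (f : O →+* κ) (hπ : f π = 0) :
    ∃ b : Fin (Module.finrank (IntermediateField.adjoin E {jL E N}) (FL E N)) → FL E N,
      (∀ i, IsIntegral (Algebra.adjoin O {jL E N}) (b i)) ∧
      ∃ d : FL E N, d ∈ Algebra.adjoin O {jL E N} ∧
        ((Algebra.traceMatrix (IntermediateField.adjoin E {jL E N}) b).det : FL E N) = d ∧
        ∀ c : FL E N, c ∈ Algebra.adjoin O {jL E N} → d ≠ algebraMap O (FL E N) π * c :=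
  unramAt_jL N ι hO hζ₀ hN π f hπ

/-- **E2.G for a local ring** (e.g. a DVR `O` with uniformiser `π`): any non-unit `π`.
The conclusion is definitionally `Fermat.Agent.S30.Model.GaussUnram (E := E) π (jL E N)`, and
`jL E N` is definitionally `Fermat.Agent.S18.K1Main.jE N E`. -/
theorem gaussUnram_jL_of_not_isUnit [IsLocalRing O] (ι : E →+* ℂ)
    (hO : Function.Injective (algebraMap O E))
    {ζ₀ : O} (hζ₀ : IsPrimitiveRoot ζ₀ N) (hN : IsUnit (N : O)) (π : O) (hπ : ¬ IsUnit π) :
    ∃ b : Fin (Module.finrank (IntermediateField.adjoin E {jL E N}) (FL E N)) → FL E N,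
      (∀ i, IsIntegral (Algebra.adjoin O {jL E N}) (b i)) ∧
      ∃ d : FL E N, d ∈ Algebra.adjoin O {jL E N} ∧
        ((Algebra.traceMatrix (IntermediateField.adjoin E {jL E N}) b).det : FL E N) = d ∧
        ∀ c : FL E N, c ∈ Algebra.adjoin O {jL E N} → d ≠ algebraMap O (FL E N) π * c :=
  gaussUnram_jL N ι hO hζ₀ hN π (IsLocalRing.residue O)
    ((IsLocalRing.residue_eq_zero_iff π).mpr hπ)

end Main

end Fermat.Agent.S30.E2.GaussUnram
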