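import Mathlib
import Fermat.Prelude.Def_ModularCurve_ReductionModL
import Fermat.Agent.S18.K1Defs
import Fermat.Agent.S30.GaussDVR
import Fermat.Agent.S30.GaussDescent
import Fermat.Agent.S30.GaussOne
import Fermat.Agent.S30.Model.Main

set_option autoImplicit false
set_option linter.unusedSectionVars false
set_option synthInstance.maxHeartbeats 400000
set_option maxHeartbeats 1000000

/-!
# S30 / E2.G1: `Model.GaussOne` for the modular function field `LE N E`, `u = j`

`O = OE A E` a discrete valuation ring, `L = LE N E ⊆ E((q))`, `u : L` with underlying series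
`coeffEmb E jq` (the `j`-invariant).  If `π` is prime in the integral closure of `O[u]` in `L`
(the conclusion of `Model.main_a`), then every `g ∈ L` in the Gauss ring `GaussDVR.V O E` with
reduction `1` satisfies `Model.GaussOne π u g` (hypothesis `hg1` of `Model.main_b`).

The two instances `Algebra O L`, `IsScalarTower O E L` are instance *arguments*, so that the
statement applies to whatever the assembler installs.
-/

open ModularCurve Polynomial

noncomputable section

namespace Fermat.Agent.S30.E2G1

open Fermat.Agent.S18.K1Defs

local notation "Qb" => AlgebraicClosure ℚ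

/-- The `j`-invariant with coefficients in `E` is the base change of `jq`. -/
theorem coeffEmb_jq (E : Type*) [Field E] [Algebra ℚ E] : coeffEmb E jq = jqModC E := by
  rw [← jqModC_rat, coeffEmb, coeffMap_jqModC]

/-- The `j`-invariant over `E = Frac O` is the image of the integral series `jqModC O`. -/
theorem iota_jqModC (O E : Type*) [CommRing O] [Field E] [Algebra O E] :
    GaussDVR.iota O E (jqModC O) = jqModC E :=
  coeffMap_jqModC _

/-- The reduction of `j` is `j`. -/
theorem rho_jqModC (O : Type*) [CommRing O] [IsDomain O] [IsDiscreteValuationRing O] :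
    GaussDVR.rho O (jqModC O) = jqModC (IsLocalRing.ResidueField O) :=
  coeffMap_jqModC _

/-- `j` has a pole, over every nontrivial coefficient ring. -/
theorem order_jqModC_neg (R : Type*) [CommRing R] [Nontrivial R] : (jqModC R).order < 0 := by
  have h1 : (jqModC R).coeff (-1 : ℤ) ≠ 0 := by
    rw [coeff_jqModC_neg_one]
    exact one_ne_zero
  have h2 := HahnSeries.order_le_of_coeff_ne_zero h1
  omega

/-- The reduction of `j` has a pole (hypothesis `hpole` of `GaussOne.gaussOne_of_red_eq_one'`). -/
theorem order_rho_jqModC_neg (O : Type*) [CommRing O] [IsDomain O]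
    [IsDiscreteValuationRing O] : (GaussDVR.rho O (jqModC O)).order < 0 := by
  rw [rho_jqModC]
  exact order_jqModC_neg _

variable (N : ℕ) [NeZero N] (A : ValuationSubring Qb) (E : IntermediateField ℚ Qb)
  [IsDiscreteValuationRing (OE A E)]

/-- Every element of `LE N E` is a fraction of two series with coefficients in `O_E`. -/
theorem mem_fracField_of_mem_LE {y : LaurentSeries E} (hy : y ∈ LE N E) :
    y ∈ GaussDVR.fracField (OE A E) E :=
  GaussDescent.mem_fracField_of_mem_laurentBaseChange A E _ (GaussDescent.intFrac_of_mem_full N) hy

/-- **E2.G1.**  `Model.GaussOne π u g` for the modular function field `L = LE N E` with `u = j`,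
from "`g` lies in the Gauss ring with reduction `1`" and "`π` is prime in the integral closure
of `O[u]` in `L`" (the conclusion of `Model.main_a`). -/
theorem gaussOne_modular
    [Algebra (OE A E) (LE N E)] [IsScalarTower (OE A E) E (LE N E)]
    (π : OE A E) (hπ : Irreducible π)
    (u : LE N E) (hu : (u : LaurentSeries E) = coeffEmb E jq)
    [FiniteDimensional (IntermediateField.adjoin E {u}) (LE N E)]
    (hprime : Prime (algebraMap (Algebra.adjoin (OE A E) {u})
      (integralClosure (Algebra.adjoin (OE A E) {u}) (LE N E))
      (algebraMap (OE A E) (Algebra.adjoin (OE A E) {u}) π)))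
    (g : LaurentSeries E) (hgL : g ∈ LE N E) (hgV : g ∈ GaussDVR.V (OE A E) E)
    (hg1 : GaussDVR.red (OE A E) E ⟨g, hgV⟩ = 1) :
    Model.GaussOne π u (⟨g, hgL⟩ : LE N E) := by
  have hu' : (LE N E).val u = GaussDVR.iota (OE A E) E (jqModC (OE A E)) := by
    rw [iota_jqModC, ← coeffEmb_jq]
    exact hu
  exact GaussOne.gaussOne_of_red_eq_one' (O := OE A E) (E := E) (L := LE N E) (LE N E).val
    (fun x => mem_fracField_of_mem_LE N A E x.2) π hπ u (jqModC (OE A E)) hu'
    (order_rho_jqModC_neg (OE A E)) hprime ⟨g, hgL⟩ hgV hg1

end Fermat.Agent.S30.E2G1
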