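import Mathlib
import Fermat.Prelude.Def_ModularCurve_ReductionModL
import Fermat.Agent.S18.K1Defs
import Fermat.Agent.S30.GaussDVR
import Fermat.Agent.S30.GaussDescent
import Fermat.Agent.S30.GaussOne
import Fermat.Agent.S30.Model.Main

set_option autoImplicit false
set_option linter.unusedSectionVars false
set_option synthInstance.maxHeartbeats 400000
set_option maxHeartbeats 1000000

/-!
# S30 / E2.G1 for auxiliary fields: `Model.GaussOne` for subfields of `E((q))`

For the auxiliary levels (`ℓ = 2, 3`) the Model theorem is applied to a field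
`L' ⊇ LE N E` inside `E((q))` with coordinate `u = 1/s`, `s = q + …` an integral power series
(a Hauptmodul).  This file provides

* `fracFieldIF O E` : the fraction field of `O((q))` as an intermediate field of `E((q)) / E`,
  with `LE_le_fracFieldIF` and the usual lattice lemmas available for `L' ≤ fracFieldIF O E`;
* `invZ a` : the integral Laurent series `1/a` for `a = q + … ∈ ℤ[[q]]`, its base changes and
  its pole;
* `gaussOne_intermediate` : `Model.GaussOne π u g` for an arbitrary intermediate field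
  `L ≤ fracFieldIF O E` and `u` an integral series whose reduction has a pole;
* `gaussOne_inv` : the same for `u = 1/s`, `s` the image of `a = q + … ∈ ℤ[[q]]`.
-/

open ModularCurve

noncomputable section

namespace Fermat.Agent.S30.E2G1Aux

open Fermat.Agent.S18.K1Defs

local notation "Qb" => AlgebraicClosure ℚ

/-! ### The fraction field of `O((q))` as an intermediate field -/

section FracField

variable (O E : Type*) [CommRing O] [IsDomain O] [IsDiscreteValuationRing O] [Field E]
  [Algebra O E] [FaithfulSMul O E] [IsFractionRing O E]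

/-- Constants lie in the fraction field of `O((q))`. -/
theorem algebraMap_mem_fracField (c : E) :
    algebraMap E (LaurentSeries E) c ∈ GaussDVR.fracField O E := by
  obtain ⟨a, b, hb, rfl⟩ := IsFractionRing.div_surjective (A := O) c
  have hb0 : b ≠ 0 := nonZeroDivisors.ne_zero hb
  have hbE : algebraMap O E b ≠ 0 := fun h =>
    hb0 (FaithfulSMul.algebraMap_injective O E (by rw [h, map_zero]))
  rw [algebraMap_laurentSeries_eq_single]
  refine ⟨HahnSeries.C a, HahnSeries.C b, ?_, ?_⟩
  · exact HahnSeries.C_ne_zero hb0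
  · rw [GaussDVR.iota_C, GaussDVR.iota_C, HahnSeries.C_apply, HahnSeries.C_apply,
      HahnSeries.single_mul_single, zero_add, div_mul_cancel₀ _ hbE]

/-- The fraction field of `O((q))` inside `E((q))`, as an intermediate field over `E`. -/
def fracFieldIF : IntermediateField E (LaurentSeries E) where
  toSubalgebra :=
    { (GaussDVR.fracField O E).toSubring.toSubsemiring with
      algebraMap_mem' := fun c => algebraMap_mem_fracField O E c }
  inv_mem' := fun _ hx => (GaussDVR.fracField O E).inv_mem hx

theorem mem_fracFieldIF {x : LaurentSeries E} :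
    x ∈ fracFieldIF O E ↔ x ∈ GaussDVR.fracField O E := Iff.rfl

/-- Adjoining elements of the fraction field of `O((q))` stays inside it. -/
theorem adjoin_le_fracFieldIF {S : Set (LaurentSeries E)}
    (hS : ∀ s ∈ S, s ∈ GaussDVR.fracField O E) :
    IntermediateField.adjoin E S ≤ fracFieldIF O E :=
  IntermediateField.adjoin_le_iff.mpr hS

end FracField

/-- The modular function field `LE N E` lies in the fraction field of `O_E((q))`. -/
theorem LE_le_fracFieldIF (N : ℕ) [NeZero N] (A : ValuationSubring Qb)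
    (E : IntermediateField ℚ Qb) [IsDiscreteValuationRing (OE A E)] :
    LE N E ≤ fracFieldIF (OE A E) E := fun _ hy =>
  GaussDescent.mem_fracField_of_mem_laurentBaseChange A E _ (GaussDescent.intFrac_of_mem_full N) hy

/-! ### The integral inverse of `a = q + …` -/

section Inv

open PowerSeries

/-- `a / q` for a power series `a`. -/
def shift (a : PowerSeries ℤ) : PowerSeries ℤ := PowerSeries.mk fun n => coeff (n + 1) a

theorem eq_X_mul_shift (a : PowerSeries ℤ) (h0 : coeff 0 a = 0) : a = X * shift a := by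
  have h := PowerSeries.eq_X_mul_shift_add_const a
  rw [← coeff_zero_eq_constantCoeff_apply, h0, map_zero, add_zero] at h
  exact h

theorem constantCoeff_shift (a : PowerSeries ℤ) (h1 : coeff 1 a = 1) :
    constantCoeff (shift a) = ((1 : ℤˣ) : ℤ) := by
  rw [← coeff_zero_eq_constantCoeff_apply, shift, coeff_mk, zero_add, h1, Units.val_one]

/-- The Laurent series `1/a` with integer coefficients, for `a = q + …`. -/
def invZ (a : PowerSeries ℤ) : LaurentSeries ℤ :=
  HahnSeries.single (-1 : ℤ) (1 : ℤ) * HahnSeries.ofPowerSeries ℤ ℤ (invOfUnit (shift a) 1)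

theorem invZ_mul (a : PowerSeries ℤ) (h0 : coeff 0 a = 0) (h1 : coeff 1 a = 1) :
    invZ a * HahnSeries.ofPowerSeries ℤ ℤ a = 1 := by
  have hX : HahnSeries.ofPowerSeries ℤ ℤ (X : PowerSeries ℤ) = HahnSeries.single (1 : ℤ) (1 : ℤ) :=
    HahnSeries.ofPowerSeries_X
  have hu : shift a * invOfUnit (shift a) 1 = 1 :=
    mul_invOfUnit (shift a) 1 (constantCoeff_shift a h1)
  have h2 : HahnSeries.ofPowerSeries ℤ ℤ (invOfUnit (shift a) 1) *
      HahnSeries.ofPowerSeries ℤ ℤ (shift a) = 1 := by
    rw [← map_mul, mul_comm, hu, map_one]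
  have h3 : HahnSeries.single (-1 : ℤ) (1 : ℤ) * HahnSeries.single (1 : ℤ) (1 : ℤ) =
      (1 : LaurentSeries ℤ) := by
    rw [HahnSeries.single_mul_single]
    norm_num
  have h4 : HahnSeries.ofPowerSeries ℤ ℤ a =
      HahnSeries.single (1 : ℤ) (1 : ℤ) * HahnSeries.ofPowerSeries ℤ ℤ (shift a) := by
    conv_lhs => rw [eq_X_mul_shift a h0]
    rw [map_mul, hX]
  rw [invZ, h4]
  calc HahnSeries.single (-1 : ℤ) (1 : ℤ) * HahnSeries.ofPowerSeries ℤ ℤ (invOfUnit (shift a) 1) *
        (HahnSeries.single (1 : ℤ) (1 : ℤ) * HahnSeries.ofPowerSeries ℤ ℤ (shift a))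
      = (HahnSeries.single (-1 : ℤ) (1 : ℤ) * HahnSeries.single (1 : ℤ) (1 : ℤ)) *
          (HahnSeries.ofPowerSeries ℤ ℤ (invOfUnit (shift a) 1) *
            HahnSeries.ofPowerSeries ℤ ℤ (shift a)) := by ring
    _ = 1 := by rw [h2, h3, mul_one]

theorem coeff_invZ_neg_one (a : PowerSeries ℤ) : (invZ a).coeff (-1 : ℤ) = 1 := by
  have h := HahnSeries.coeff_single_mul_add (r := (1 : ℤ))
    (x := HahnSeries.ofPowerSeries ℤ ℤ (invOfUnit (shift a) 1)) (a := (0 : ℤ)) (b := (-1 : ℤ))
  rw [zero_add, one_mul] at h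
  rw [invZ, h]
  have h2 := HahnSeries.ofPowerSeries_apply_coeff (Γ := ℤ) (invOfUnit (shift a) 1) 0
  rw [Nat.cast_zero] at h2
  rw [h2, coeff_zero_eq_constantCoeff_apply, constantCoeff_invOfUnit]
  simp

variable {R : Type*} [CommRing R]

/-- Base change of the inverse relation. -/
theorem coeffMap_invZ_mul (f : ℤ →+* R) (a : PowerSeries ℤ) (h0 : coeff 0 a = 0)
    (h1 : coeff 1 a = 1) :
    coeffMap f (invZ a) * HahnSeries.ofPowerSeries ℤ R (a.map f) = 1 := by
  rw [← coeffMap_ofPowerSeries, ← map_mul, invZ_mul a h0 h1, map_one]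

/-- `1/a` has a pole over every nontrivial coefficient ring. -/
theorem order_coeffMap_invZ_neg [Nontrivial R] (f : ℤ →+* R) (a : PowerSeries ℤ) :
    (coeffMap f (invZ a)).order < 0 := by
  have h1 : (coeffMap f (invZ a)).coeff (-1 : ℤ) ≠ 0 := by
    rw [coeffMap_coeff, coeff_invZ_neg_one, map_one]
    exact one_ne_zero
  have h2 := HahnSeries.order_le_of_coeff_ne_zero h1
  omega

end Inv

/-! ### `Model.GaussOne` for intermediate fields of `E((q)) / E` -/

section Main

variable {O E : Type*} [CommRing O] [IsDomain O] [IsDiscreteValuationRing O] [Field E]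
  [Algebra O E] [FaithfulSMul O E] [IsFractionRing O E]

/-- **G1 for an arbitrary subfield of `E((q))`.**  `L ≤ Frac O((q))`, `u ∈ L` an integral series
whose reduction has a pole, `π` prime in the integral closure of `O[u]` in `L` (= the conclusion
of `Model.main_a` for `(L, u)`): every `g ∈ L` in the Gauss ring with reduction `1` satisfies
`Model.GaussOne π u g`. -/
theorem gaussOne_intermediate (L : IntermediateField E (LaurentSeries E))
    (hL : L ≤ fracFieldIF O E)
    [Algebra O L] [IsScalarTower O E L]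
    (π : O) (hπ : Irreducible π) (u : L) (uO : LaurentSeries O)
    (hu : (u : LaurentSeries E) = GaussDVR.iota O E uO) (hpole : (GaussDVR.rho O uO).order < 0)
    [FiniteDimensional (IntermediateField.adjoin E {u}) L]
    (hprime : Prime (algebraMap (Algebra.adjoin O {u}) (integralClosure (Algebra.adjoin O {u}) L)
      (algebraMap O (Algebra.adjoin O {u}) π)))
    (g : LaurentSeries E) (hgL : g ∈ L) (hgV : g ∈ GaussDVR.V O E)
    (hg1 : GaussDVR.red O E ⟨g, hgV⟩ = 1) :
    Model.GaussOne π u (⟨g, hgL⟩ : L) :=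
  GaussOne.gaussOne_of_red_eq_one' (O := O) (E := E) (L := L) L.val
    (fun x => hL x.2) π hπ u uO hu hpole hprime ⟨g, hgL⟩ hgV hg1

variable [Algebra ℚ E]

/-- The image in `E((q))` of an integral power series. -/
theorem coeffEmb_ofPowerSeries (a : PowerSeries ℤ) :
    coeffEmb E (HahnSeries.ofPowerSeries ℤ ℚ (a.map (Int.castRingHom ℚ))) =
      HahnSeries.ofPowerSeries ℤ E (a.map (Int.castRingHom E)) := by
  rw [coeffEmb, coeffMap_ofPowerSeries]
  congr 1
  rw [← RingHom.comp_apply (PowerSeries.map (algebraMap ℚ E)), ← PowerSeries.map_comp]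
  congr 2
  exact RingHom.ext_int _ _

/-- The integral model over `O` of `1/s`, `s` the image of `a = q + … ∈ ℤ[[q]]`. -/
def invO (O : Type*) [CommRing O] (a : PowerSeries ℤ) : LaurentSeries O :=
  coeffMap (Int.castRingHom O) (invZ a)

theorem iota_invO (a : PowerSeries ℤ) :
    GaussDVR.iota O E (invO O a) = coeffMap (Int.castRingHom E) (invZ a) := by
  rw [invO]
  show coeffMap (algebraMap O E) (coeffMap (Int.castRingHom O) (invZ a)) = _
  rw [coeffMap_coeffMap]
  exact coeffMap_congr (RingHom.ext_int _ _) _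

/-- `1/s = ι(invO a)` in `E((q))`. -/
theorem inv_coeffEmb_eq_iota (a : PowerSeries ℤ) (h0 : PowerSeries.coeff 0 a = 0)
    (h1 : PowerSeries.coeff 1 a = 1) :
    (coeffEmb E (HahnSeries.ofPowerSeries ℤ ℚ (a.map (Int.castRingHom ℚ))))⁻¹ =
      GaussDVR.iota O E (invO O a) := by
  rw [coeffEmb_ofPowerSeries, iota_invO]
  exact inv_eq_of_mul_eq_one_left (coeffMap_invZ_mul (Int.castRingHom E) a h0 h1)

theorem order_rho_invO_neg (a : PowerSeries ℤ) : (GaussDVR.rho O (invO O a)).order < 0 := by
  have h : GaussDVR.rho O (invO O a) =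
      coeffMap (Int.castRingHom (IsLocalRing.ResidueField O)) (invZ a) := by
    rw [invO]
    show coeffMap (IsLocalRing.residue O) (coeffMap (Int.castRingHom O) (invZ a)) = _
    rw [coeffMap_coeffMap]
    exact coeffMap_congr (RingHom.ext_int _ _) _
  rw [h]
  exact order_coeffMap_invZ_neg _ a

/-- **G1 for `u = 1/s`**, `s` the image in `E((q))` of an integral power series `a = q + …`
(e.g. the Hauptmoduln `s2`, `s3` of `Γ₀(2)`, `Γ₀(3)`). -/
theorem gaussOne_inv (L : IntermediateField E (LaurentSeries E))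
    (hL : L ≤ fracFieldIF O E)
    [Algebra O L] [IsScalarTower O E L]
    (π : O) (hπ : Irreducible π) (a : PowerSeries ℤ) (h0 : PowerSeries.coeff 0 a = 0)
    (h1 : PowerSeries.coeff 1 a = 1) (u : L)
    (hu : (u : LaurentSeries E) =
      (coeffEmb E (HahnSeries.ofPowerSeries ℤ ℚ (a.map (Int.castRingHom ℚ))))⁻¹)
    [FiniteDimensional (IntermediateField.adjoin E {u}) L]
    (hprime : Prime (algebraMap (Algebra.adjoin O {u}) (integralClosure (Algebra.adjoin O {u}) L)
      (algebraMap O (Algebra.adjoin O {u}) π)))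
    (g : LaurentSeries E) (hgL : g ∈ L) (hgV : g ∈ GaussDVR.V O E)
    (hg1 : GaussDVR.red O E ⟨g, hgV⟩ = 1) :
    Model.GaussOne π u (⟨g, hgL⟩ : L) :=
  gaussOne_intermediate L hL π hπ u (invO O a)
    (hu.trans (inv_coeffEmb_eq_iota a h0 h1)) (order_rho_invO_neg a) hprime g hgL hgV hg1

/-- `1/s` lies in the fraction field of `O((q))`. -/
theorem inv_coeffEmb_mem_fracField (a : PowerSeries ℤ) (h0 : PowerSeries.coeff 0 a = 0)
    (h1 : PowerSeries.coeff 1 a = 1) :
    (coeffEmb E (HahnSeries.ofPowerSeries ℤ ℚ (a.map (Int.castRingHom ℚ))))⁻¹ ∈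
      GaussDVR.fracField O E := by
  rw [inv_coeffEmb_eq_iota (O := O) a h0 h1]
  exact GaussDVR.closure_range_iota_le O E (Subfield.subset_closure ⟨_, rfl⟩)

end Main

end Fermat.Agent.S30.E2G1Aux
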