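/-
S30 / E2 (modular inputs of the Model theorem), generic algebra (helper80).

`P ∈ A[X]` monic, `φ : A →+* K` a ring hom to a field, `L / K` a finite field extension of
degree `deg P`, generated by a root `θ` of `P^φ`.  Then the trace matrix of the power family
`θ^i` over `K` is the image under `φ` of the trace matrix of the power basis of `A[X]/(P)`;
in particular its determinant is `φ (discr (A[X]/(P)))`.

Second part: the resulting "unramified at `π`" statement in the elementwise
trace-discriminant form of `Model.UnramAt` (literal body, no import of the Model skeleton).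
-/
import Mathlib

set_option autoImplicit false

noncomputable section

namespace Fermat.Agent.S30.E2.PowerDisc

open Polynomial IntermediateField

section Generic

variable {A K L : Type*} [CommRing A] [Field K] [Field L] [Algebra K L]
  (φ : A →+* K) {P : A[X]} (hP : P.Monic) (θ : L)
  (hroot : P.eval₂ ((algebraMap K L).comp φ) θ = 0)

/-- The evaluation `A[X]/(P) → L`, `X ↦ θ`. -/
def liftHom : AdjoinRoot P →+* L := AdjoinRoot.lift ((algebraMap K L).comp φ) θ hroot

omit hP in
theorem liftHom_of (a : A) :
    liftHom φ θ hroot (AdjoinRoot.of P a) = algebraMap K L (φ a) :=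
  AdjoinRoot.lift_of hroot

omit hP in
theorem liftHom_root : liftHom φ θ hroot (AdjoinRoot.root P) = θ :=
  AdjoinRoot.lift_root hroot

omit hP in
theorem liftHom_smul (a : A) (y : AdjoinRoot P) :
    liftHom φ θ hroot (a • y) = φ a • liftHom φ θ hroot y := by
  rw [Algebra.smul_def, map_mul, Algebra.smul_def]
  congr 1
  exact liftHom_of φ θ hroot a

variable {ι : Type*} [Fintype ι] [DecidableEq ι]
  (bA : Module.Basis ι A (AdjoinRoot P)) (bK : Module.Basis ι K L)
  (hb : ∀ i, liftHom φ θ hroot (bA i) = bK i)

include hb in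
omit hP [Fintype ι] [DecidableEq ι] in
theorem repr_liftHom [Fintype ι] (y : AdjoinRoot P) (i : ι) :
    bK.repr (liftHom φ θ hroot y) i = φ (bA.repr y i) := by
  classical
  have h1 : liftHom φ θ hroot y = ∑ i, φ (bA.repr y i) • bK i := by
    conv_lhs => rw [← bA.sum_repr y]
    rw [map_sum]
    refine Finset.sum_congr rfl fun i _ => ?_
    rw [liftHom_smul, hb]
  rw [h1, bK.repr_sum_self]

include hb in
omit hP in
theorem leftMulMatrix_liftHom (x : AdjoinRoot P) :
    Algebra.leftMulMatrix bK (liftHom φ θ hroot x) = (Algebra.leftMulMatrix bA x).map φ := by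
  ext i j
  rw [Algebra.leftMulMatrix_eq_repr_mul, Matrix.map_apply, Algebra.leftMulMatrix_eq_repr_mul]
  have h : liftHom φ θ hroot x * bK j = liftHom φ θ hroot (x * bA j) := by
    rw [map_mul, hb]
  rw [h, repr_liftHom φ θ hroot bA bK hb]

include hb in
omit hP in
theorem trace_liftHom (x : AdjoinRoot P) :
    Algebra.trace K L (liftHom φ θ hroot x) = φ (Algebra.trace A (AdjoinRoot P) x) := by
  rw [Algebra.trace_eq_matrix_trace bK, leftMulMatrix_liftHom φ θ hroot bA bK hb,
    Algebra.trace_eq_matrix_trace bA]
  simp [Matrix.trace, map_sum]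

include hb in
omit hP in
theorem traceMatrix_liftHom :
    Algebra.traceMatrix K bK = (Algebra.traceMatrix A bA).map φ := by
  ext i j
  have h := trace_liftHom φ θ hroot bA bK hb (bA i * bA j)
  rw [map_mul, hb, hb] at h
  rw [Algebra.traceMatrix_apply, Algebra.traceForm_apply, Matrix.map_apply,
    Algebra.traceMatrix_apply, Algebra.traceForm_apply, h]

include hb in
omit hP in
/-- The determinant of the trace matrix is the image of the discriminant. -/
theorem det_traceMatrix_liftHom :
    (Algebra.traceMatrix K bK).det = φ (Algebra.discr A bA) := by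
  rw [traceMatrix_liftHom φ θ hroot bA bK hb, Algebra.discr_def, RingHom.map_det]
  rfl

end Generic

section Power

variable {A K L : Type*} [CommRing A] [Field K] [Field L] [Algebra K L]
  [FiniteDimensional K L]
  (φ : A →+* K) {P : A[X]} (hP : P.Monic) (θ : L)
  (hroot : P.eval₂ ((algebraMap K L).comp φ) θ = 0)
  (hdeg : P.natDegree = Module.finrank K L)
  (hmin : (minpoly K θ).natDegree = Module.finrank K L)

include hdeg hmin in
omit hroot in
/-- The power family `θ^i`, `i < deg P`, as a `K`-basis of `L`. -/
theorem exists_powBasis :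
    ∃ bK : Module.Basis (Fin (AdjoinRoot.powerBasis' hP).dim) K L,
      ∀ i, bK i = θ ^ (i : ℕ) := by
  have hdim : (AdjoinRoot.powerBasis' hP).dim = P.natDegree := rfl
  have hcast : (AdjoinRoot.powerBasis' hP).dim = (minpoly K θ).natDegree := by
    rw [hdim, hdeg, hmin]
  have hli : LinearIndependent K
      (fun i : Fin (AdjoinRoot.powerBasis' hP).dim => θ ^ (i : ℕ)) :=
    (linearIndependent_pow (K := K) θ).comp (Fin.cast hcast) (Fin.cast_injective hcast)
  have hcard : Fintype.card (Fin (AdjoinRoot.powerBasis' hP).dim) = Module.finrank K L := by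
    rw [Fintype.card_fin, hdim, hdeg]
  have : Nonempty (Fin (AdjoinRoot.powerBasis' hP).dim) :=
    ⟨⟨0, by rw [hdim, hdeg]; exact Module.finrank_pos⟩⟩
  refine ⟨basisOfLinearIndependentOfCardEqFinrank hli hcard, fun i => ?_⟩
  rw [coe_basisOfLinearIndependentOfCardEqFinrank]

include hroot hdeg hmin in
/-- **The discriminant of the power family** `θ^i`, `i < [L : K]`, is the image of the
discriminant of the power basis of `A[X]/(P)`. -/
theorem det_traceMatrix_pow :
    (Algebra.traceMatrix K (fun i : Fin (Module.finrank K L) => θ ^ (i : ℕ))).det =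
      φ (Algebra.discr A (AdjoinRoot.powerBasis' hP).basis) := by
  classical
  obtain ⟨bK, hbK⟩ := exists_powBasis hP θ hdeg hmin
  have hb : ∀ i, liftHom φ θ hroot ((AdjoinRoot.powerBasis' hP).basis i) = bK i := by
    intro i
    rw [hbK, PowerBasis.basis_eq_pow, map_pow, AdjoinRoot.powerBasis'_gen, liftHom_root]
  have h1 := det_traceMatrix_liftHom φ θ hroot (AdjoinRoot.powerBasis' hP).basis bK hb
  rw [← h1]
  have hdim : Module.finrank K L = (AdjoinRoot.powerBasis' hP).dim := hdeg.symm
  have h2 : Algebra.traceMatrix K (fun i : Fin (Module.finrank K L) => θ ^ (i : ℕ)) =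
      (Algebra.traceMatrix K bK).submatrix (finCongr hdim) (finCongr hdim) := by
    ext i j
    rw [Matrix.submatrix_apply, Algebra.traceMatrix_apply, Algebra.traceMatrix_apply, hbK, hbK]
    rfl
  rw [h2, Matrix.det_submatrix_equiv_self]

end Power

/-! ### Degree of an element from embeddings -/

section Embeddings

variable {K L Ω : Type*} [Field K] [Field L] [Algebra K L] [FiniteDimensional K L] [Field Ω]

/-- If there are `[L : K]` ring homomorphisms `L → Ω` which agree on `K` and take pairwise
distinct values at `θ`, then `θ` has degree `[L : K]` over `K`. -/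
theorem natDegree_minpoly_of_embeddings (θ : L) {I : Type*} [Finite I] (σ : I → L →+* Ω)
    (hagree : ∀ (x y : I) (k : K), σ x (algebraMap K L k) = σ y (algebraMap K L k))
    (hθ : Function.Injective fun x => σ x θ) (hcard : Nat.card I = Module.finrank K L) :
    (minpoly K θ).natDegree = Module.finrank K L := by
  classical
  refine le_antisymm (minpoly.natDegree_le θ) ?_
  have hpos : 0 < Nat.card I := by rw [hcard]; exact Module.finrank_pos
  obtain ⟨x₀⟩ : Nonempty I := (Nat.card_pos_iff.mp hpos).1
  let _ : Fintype I := Fintype.ofFinite I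
  set τ : K →+* Ω := (σ x₀).comp (algebraMap K L) with hτ
  set q : Polynomial Ω := (minpoly K θ).map τ with hq
  have hqmonic : q.Monic := (minpoly.monic (Algebra.IsIntegral.isIntegral θ)).map τ
  have hq0 : q ≠ 0 := hqmonic.ne_zero
  have hrootq : ∀ x : I, q.IsRoot (σ x θ) := by
    intro x
    have hcomp : τ = (σ x).comp (algebraMap K L) := by
      ext k
      exact hagree x₀ x k
    rw [Polynomial.IsRoot.def, hq, Polynomial.eval_map, hcomp, ← Polynomial.hom_eval₂,
      ← Polynomial.aeval_def, minpoly.aeval, map_zero]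
  have hsub : (Finset.univ.image fun x => σ x θ).val ⊆ q.roots := by
    intro z hz
    rw [Finset.mem_val, Finset.mem_image] at hz
    obtain ⟨x, -, rfl⟩ := hz
    exact (Polynomial.mem_roots hq0).mpr (hrootq x)
  have h1 := Polynomial.card_le_degree_of_subset_roots hsub
  rw [Finset.card_image_of_injective _ hθ, Finset.card_univ, hq,
    Polynomial.natDegree_map] at h1
  rw [← hcard, Nat.card_eq_fintype_card]
  exact h1

end Embeddings

/-! ### The elementwise "unramified at `π`" statement (literal body of `Model.UnramAt`) -/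

section Unram

variable {O E L : Type*} [CommRing O] [Field E] [Field L] [Algebra O E] [Algebra E L]
  [Algebra O L] [IsScalarTower O E L]

/-- `aeval u : O[X] → L` is injective for `u` transcendental over `E ⊇ O`. -/
theorem aeval_injective_of_transcendental (hinj : Function.Injective (algebraMap O E)) (u : L)
    (hu : Transcendental E u) : Function.Injective (Polynomial.aeval (R := O) u) := by
  rw [injective_iff_map_eq_zero]
  intro p hp
  have h1 : Polynomial.aeval u (p.map (algebraMap O E)) = 0 := by
    rw [Polynomial.aeval_map_algebraMap]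
    exact hp
  have h2 : p.map (algebraMap O E) = 0 := (transcendental_iff.mp hu) _ h1
  exact (Polynomial.map_eq_zero_iff hinj).mp h2

/-- The ring hom `O[X] → E(u)`, `X ↦ u`. -/
def toAdjoin (u : L) : O[X] →+* E⟮u⟯ :=
  Polynomial.eval₂RingHom ((algebraMap E E⟮u⟯).comp (algebraMap O E)) (AdjoinSimple.gen E u)

theorem algebraMap_toAdjoin (u : L) (p : O[X]) :
    algebraMap E⟮u⟯ L (toAdjoin (O := O) (E := E) u p) = Polynomial.aeval u p := by
  have h : (algebraMap E⟮u⟯ L).comp (toAdjoin (O := O) (E := E) u) =
      (Polynomial.aeval (R := O) u : O[X] →ₐ[O] L).toRingHom := by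
    refine Polynomial.ringHom_ext (fun a => ?_) ?_
    · simp only [toAdjoin, RingHom.comp_apply, Polynomial.coe_eval₂RingHom, Polynomial.eval₂_C,
        AlgHom.toRingHom_eq_coe, RingHom.coe_coe, Polynomial.aeval_C]
      rw [← IsScalarTower.algebraMap_apply E E⟮u⟯ L, ← IsScalarTower.algebraMap_apply O E L]
    · simp only [toAdjoin, RingHom.comp_apply, Polynomial.coe_eval₂RingHom, Polynomial.eval₂_X,
        AlgHom.toRingHom_eq_coe, RingHom.coe_coe, Polynomial.aeval_X]
      rfl
  exact congrArg (fun g : O[X] →+* L => g p) h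

/-- **Unramifiedness at `π` from a monic polynomial with good discriminant.**
`u` transcendental over `E = Frac`-like overfield of `O`, `L / E(u)` finite of degree `deg P`,
`θ ∈ L` a root of the monic `P ∈ O[u][X]` of degree `[L : E(u)]` over `E(u)`, and the
discriminant of `O[X][Y]/(P)` nonzero modulo a ring hom `f : O → κ` killing `π`.  Then the
family `θ^i` witnesses the literal body of `Model.UnramAt E(u) O[u] π`. -/
theorem unramAt_body (hinj : Function.Injective (algebraMap O E)) (u : L)
    (hu : Transcendental E u) [FiniteDimensional E⟮u⟯ L] (θ : L)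
    {P : Polynomial (Polynomial O)} (hP : P.Monic)
    (hroot : P.eval₂ ((Polynomial.aeval (R := O) u : O[X] →ₐ[O] L).toRingHom) θ = 0)
    (hdeg : P.natDegree = Module.finrank E⟮u⟯ L)
    (hmin : (minpoly E⟮u⟯ θ).natDegree = Module.finrank E⟮u⟯ L)
    (π : O) {κ : Type*} [Field κ] (f : O →+* κ) (hf : f π = 0)
    (hdisc : (Algebra.discr (Polynomial O) (AdjoinRoot.powerBasis' hP).basis).map f ≠ 0) :
    ∃ b : Fin (Module.finrank E⟮u⟯ L) → L, (∀ i, IsIntegral (Algebra.adjoin O {u}) (b i)) ∧
      ∃ d : L, d ∈ Algebra.adjoin O {u} ∧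
        ((Algebra.traceMatrix E⟮u⟯ b).det : L) = d ∧
        ∀ c : L, c ∈ Algebra.adjoin O {u} → d ≠ algebraMap O L π * c := by
  classical
  have hcomp : (algebraMap E⟮u⟯ L).comp (toAdjoin (O := O) (E := E) u) =
      (Polynomial.aeval (R := O) u : O[X] →ₐ[O] L).toRingHom :=
    RingHom.ext fun p => algebraMap_toAdjoin u p
  have hroot' : P.eval₂ ((algebraMap E⟮u⟯ L).comp (toAdjoin (O := O) (E := E) u)) θ = 0 := by
    rw [hcomp]; exact hroot
  have hdet := det_traceMatrix_pow (toAdjoin (O := O) (E := E) u) hP θ hroot' hdeg hmin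
  set D : Polynomial O := Algebra.discr (Polynomial O) (AdjoinRoot.powerBasis' hP).basis with hD
  -- integrality of `θ`
  have hθint : IsIntegral (Algebra.adjoin O {u}) θ := by
    let ρ : O[X] →+* Algebra.adjoin O {u} :=
      (Polynomial.aeval (R := O)
        (⟨u, Algebra.self_mem_adjoin_singleton O u⟩ : Algebra.adjoin O {u})).toRingHom
    have hρ : (algebraMap (Algebra.adjoin O {u}) L).comp ρ =
        (Polynomial.aeval (R := O) u : O[X] →ₐ[O] L).toRingHom := by
      refine Polynomial.ringHom_ext (fun a => ?_) ?_
      · simp only [ρ, RingHom.comp_apply, AlgHom.toRingHom_eq_coe, RingHom.coe_coe,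
          Polynomial.aeval_C]
        rfl
      · simp only [ρ, RingHom.comp_apply, AlgHom.toRingHom_eq_coe, RingHom.coe_coe,
          Polynomial.aeval_X]
        rfl
    refine ⟨P.map ρ, hP.map ρ, ?_⟩
    rw [Polynomial.eval₂_map, hρ]
    exact hroot
  refine ⟨fun i => θ ^ (i : ℕ), fun i => hθint.pow _, Polynomial.aeval u D,
    Polynomial.aeval_mem_adjoin_singleton O u, ?_, ?_⟩
  · rw [hdet]
    exact algebraMap_toAdjoin u D
  · intro c hc heq
    rw [Algebra.adjoin_singleton_eq_range_aeval] at hc
    obtain ⟨c', rfl⟩ := hc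
    have h1 : Polynomial.aeval u D = Polynomial.aeval (R := O) u (Polynomial.C π * c') := by
      rw [heq, map_mul, Polynomial.aeval_C]
      rfl
    have h2 : D = Polynomial.C π * c' := aeval_injective_of_transcendental hinj u hu h1
    apply hdisc
    rw [h2, Polynomial.map_mul, Polynomial.map_C, hf, Polynomial.C_0, zero_mul]

end Unram

end Fermat.Agent.S30.E2.PowerDisc
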