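/-
S30 / E2.G, INSURANCE route (helper80): hypothesis (i) `GaussUnram` of the Model theorem for the
modular function field `FL E N = E(j(q^d) : d ∣ N) ⊆ E((q))` over the base `O[j]`.

Route (no formal cusp embeddings over `E`):
* analytic side (`S30.CSide`, over `E` itself): `[FL E N : E(j)] = ψ(N)`, and the `ψ(N)` coset
  embeddings into `Frac(HolH)` agree on `E(j)` and are pairwise distinct on `θ = j(q^N)`;
  hence `θ` has degree `ψ(N)` over `E(j)`;
* formal side (`S30.ModDisc`): the modular polynomial `P ∈ O[j][X]`, monic of degree `ψ(N)`,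
  `P(j, θ) = 0`, with discriminant nonzero after every reduction of `O` to a field;
* generic link (`E2.PowerDisc`): the trace discriminant of `1, θ, …, θ^(ψ(N)-1)` over `E(j)` is
  the image of the discriminant of `P`.

Output: the literal body of `Model.GaussUnram π (jL E N)` (no import of the Model skeleton).
-/
import Mathlib
import Fermat.Agent.S30.E2.PowerDisc
import Fermat.Agent.S30.ModDisc
import Fermat.Agent.S30.CSide.Degree
import Fermat.Prelude.Sol.S_ModularCurve_coeff_jqModC_neg_one

set_option autoImplicit false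

noncomputable section

open Polynomial IntermediateField ModularCurve UpperHalfPlane CongruenceSubgroup
open scoped MatrixGroups

namespace Fermat.Agent.S30.E2.GaussUnramAlt

open Fermat.Agent.S30.CSide Fermat.Agent.S24.HolH Fermat.Agent.S24.Theta
open Fermat.Agent.S28 Fermat.Agent.S28.Defs Fermat.Agent.S30.ModDisc

variable {E : Type} [Field E] [Algebra ℚ E] (N : ℕ) [NeZero N]

/-- `θ = j(q^N)` as an element of `FL E N`. -/
def thetaE : FL E N := ((genL E N N dvd_rfl : A0L E N) : FL E N)

omit [NeZero N] in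
theorem coe_jL_eq : ((jL E N : FL E N) : LaurentSeries E) = jqModC E := by
  rw [coe_jL]
  exact Fermat.Agent.S24.Puiseux.coeffEmb_jq

theorem coe_thetaE_eq : ((thetaE (E := E) N : FL E N) : LaurentSeries E) = qE E N (jqModC E) := by
  have h1 : ((thetaE (E := E) N : FL E N) : LaurentSeries E) = coeffEmb E (qExpand ℚ N jq) := rfl
  rw [h1, Fermat.Agent.S24.Puiseux.coeffEmb_qExpand_jq]
  unfold qE
  rw [dif_neg (NeZero.ne N)]

omit [NeZero N] in
/-- `j` is transcendental over `E` (any field `E`, not necessarily algebraically closed). -/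
theorem transcendental_jL' : Transcendental E (jL E N) := by
  intro halg
  have h1 : IsAlgebraic E ((laurentBaseChange E (modularFunctionFieldFull N)).val (jL E N)) :=
    halg.algHom _
  have h2 : (laurentBaseChange E (modularFunctionFieldFull N)).val (jL E N) = jqModC E :=
    coe_jL_eq N
  rw [h2] at h1
  exact P2MW.S_ModularCurve_coeff_jqModC_neg_one.ModularCurve.CharLRows.transcendental_jqModC E h1

/-- The coset embeddings take pairwise distinct values at `θ = j(q^N)`. -/
theorem cosetEmbL_thetaE_injective (ι : E →+* ℂ) :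
    Function.Injective fun x : SL(2, ℤ) ⧸ Gamma0 N => cosetEmbL ι N x (thetaE (E := E) N) := by
  intro x y hxy
  have hθ : ∀ γ ∈ Gamma0 N, ∀ a : A0L E N, compSL γ (thetaL ι N a) = thetaL ι N a :=
    fun γ hγ a => compSL_thetaL_of_mem_Gamma0 hγ a
  have h0 : cosetHom (thetaL ι N) x (genL E N N dvd_rfl) =
      cosetHom (thetaL ι N) y (genL E N N dvd_rfl) := by
    have h1 : cosetEmbL ι N x (thetaE (E := E) N) = cosetEmbL ι N y (thetaE (E := E) N) := hxy
    unfold thetaE at h1
    rw [cosetEmbL_coe, cosetEmbL_coe] at h1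
    exact IsFractionRing.injective HolH (FractionRing HolH) h1
  obtain ⟨g, rfl⟩ := QuotientGroup.mk_surjective x
  obtain ⟨h, rfl⟩ := QuotientGroup.mk_surjective y
  rw [cosetHom_mk (thetaL ι N) hθ, cosetHom_mk (thetaL ι N) hθ] at h0
  have h2 : compSL (g⁻¹ * h) (thetaL ι N (genL E N N dvd_rfl)) =
      thetaL ι N (genL E N N dvd_rfl) := by
    rw [compSL_mul, h0, ← compSL_mul, inv_mul_cancel, compSL_one]
  exact QuotientGroup.eq.mpr (mem_Gamma0_of_compSL_thetaL_genL ι N _ h2)

/-- `θ = j(q^N)` has degree `[FL E N : E(j)]` over `E(j)`. -/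
theorem natDegree_minpoly_thetaE [CharZero E] (ι : E →+* ℂ)
    [FiniteDimensional E⟮jL E N⟯ (FL E N)] :
    (minpoly E⟮jL E N⟯ (thetaE (E := E) N)).natDegree = Module.finrank E⟮jL E N⟯ (FL E N) := by
  have : Finite (SL(2, ℤ) ⧸ Gamma0 N) :=
    Fermat.Agent.S24.GenusNat.finite_quotient N (NeZero.ne N)
  refine PowerDisc.natDegree_minpoly_of_embeddings (thetaE (E := E) N) (cosetEmbL ι N) ?_
    (cosetEmbL_thetaE_injective N ι) ?_
  · intro x y k
    exact Fermat.Agent.S24.DegreeAbs.agree_on_adjoin_simple (jL E N) (cosetEmbL ι N x)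
      (cosetEmbL ι N y) (cosetEmbL_algebraMap ι N x y) (cosetEmbL_jL ι N x y) k
  · rw [Fermat.Agent.S24.Comb.card_quotient_Gamma0 N, finrank_jL ι N]

section Main

variable {O : Type*} [CommRing O] [Algebra O E] [Algebra O (FL E N)] [IsScalarTower O E (FL E N)]

/-- The modular polynomial relation `P(j, θ) = 0` inside `FL E N`. -/
theorem eval₂_thetaE_eq_zero {P : Polynomial (Polynomial O)}
    (hP : P.eval₂ (Polynomial.eval₂RingHom (HahnSeries.C : O →+* LaurentSeries O) (jqModC O))
      (qE O N (jqModC O)) = 0) :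
    P.eval₂ ((Polynomial.aeval (R := O) (jL E N) : O[X] →ₐ[O] FL E N).toRingHom)
      (thetaE (E := E) N) = 0 := by
  set V : FL E N →+* LaurentSeries E := algebraMap (FL E N) (LaurentSeries E) with hV
  have hVinj : Function.Injective V := Subtype.val_injective
  have key : V.comp ((Polynomial.aeval (R := O) (jL E N) : O[X] →ₐ[O] FL E N).toRingHom) =
      (coeffMap (algebraMap O E)).comp
        (Polynomial.eval₂RingHom (HahnSeries.C : O →+* LaurentSeries O) (jqModC O)) := by
    refine Polynomial.ringHom_ext (fun a => ?_) ?_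
    · simp only [RingHom.comp_apply, AlgHom.toRingHom_eq_coe, RingHom.coe_coe,
        Polynomial.aeval_C, Polynomial.coe_eval₂RingHom, Polynomial.eval₂_C, Formal.coeffMap_C]
      rw [IsScalarTower.algebraMap_apply O E (FL E N), hV,
        ← IsScalarTower.algebraMap_apply E (FL E N) (LaurentSeries E),
        HahnSeries.algebraMap_apply']
      simp
    · simp only [RingHom.comp_apply, AlgHom.toRingHom_eq_coe, RingHom.coe_coe,
        Polynomial.aeval_X, Polynomial.coe_eval₂RingHom, Polynomial.eval₂_X, coeffMap_jqModC]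
      exact coe_jL_eq N
  have hθ : V (thetaE (E := E) N) = coeffMap (algebraMap O E) (qE O N (jqModC O)) := by
    rw [Formal.coeffMap_qE, coeffMap_jqModC]
    exact coe_thetaE_eq N
  apply hVinj
  rw [map_zero, Polynomial.hom_eval₂, key, hθ, ← Polynomial.hom_eval₂, hP, map_zero]

/-- **Hypothesis (i) of the Model theorem for the modular function field**, literal body of
`Model.GaussUnram (E := E) π (jL E N)`: the family `θ^i`, `θ = j(q^N)`, `i < ψ(N)`, is integral
over `O[j]` and its trace discriminant over `E(j)` is an element of `O[j]` not divisible by `π`.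

Hypotheses: `O ⊆ E` a subring containing a primitive `N`-th root of unity and `1/N`,
`ι : E →+* ℂ` any embedding, `f : O →+* κ` any ring hom to a field with `f π = 0`. -/
theorem gaussUnram_body (hinj : Function.Injective (algebraMap O E)) (ι : E →+* ℂ) {ζ₀ : O}
    (hζ₀ : IsPrimitiveRoot ζ₀ N) (hN : IsUnit (N : O)) (π : O) {κ : Type*} [Field κ]
    (f : O →+* κ) (hf : f π = 0) :
    ∃ b : Fin (Module.finrank E⟮jL E N⟯ (FL E N)) → FL E N,
      (∀ i, IsIntegral (Algebra.adjoin O {jL E N}) (b i)) ∧
      ∃ d : FL E N, d ∈ Algebra.adjoin O {jL E N} ∧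
        ((Algebra.traceMatrix E⟮jL E N⟯ b).det : FL E N) = d ∧
        ∀ c : FL E N, c ∈ Algebra.adjoin O {jL E N} → d ≠ algebraMap O (FL E N) π * c := by
  have : CharZero E := algebraRat.charZero E
  have hfin : FiniteDimensional E⟮jL E N⟯ (FL E N) := finite_jL ι N
  have hιO : Function.Injective (ι.comp (algebraMap O E)) := ι.injective.comp hinj
  obtain ⟨P, hP, hdegP, hrootP, -, hdiscP⟩ :=
    exists_modular_poly_discr N (ι.comp (algebraMap O E)) hιO hζ₀ hN
  refine PowerDisc.unramAt_body hinj (jL E N) (transcendental_jL' N) (thetaE (E := E) N) hP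
    (eval₂_thetaE_eq_zero N hrootP) ?_ (natDegree_minpoly_thetaE N ι) π f hf (hdiscP κ f)
  rw [hdegP, finrank_jL ι N, ← Fermat.Agent.S24.Comb.card_quotient_Gamma0 N]
  rfl

end Main

end Fermat.Agent.S30.E2.GaussUnramAlt
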