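/-
S30 / E2.G, INSURANCE route (helper80): `Model.GaussUnram π j` for the level-`N` modular function
field, in the shapes consumed by `S18.K1Main` (`JInputs.gauss`).

* `gaussUnram_jE` : generic discrete valuation ring `O` with fraction field `E`, any embedding
  `ι : E →+* ℂ`, a primitive `N`-th root of unity in `O`, `N` a unit of `O`.
* `gaussUnram_OE` : `O = O_E = A ∩ E` for a valuation ring `A` of `ℚ̄` over a prime `ℓ ∤ N` and a
  number field `E ⊆ ℚ̄` containing a primitive `N`-th root of unity; canonical `O`-algebra structure.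
-/
import Mathlib
import Fermat.Agent.S30.E2.GaussUnramAlt
import Fermat.Agent.S30.E2.DegreeL
import Fermat.Agent.S18.K1Main

set_option autoImplicit false
set_option synthInstance.maxHeartbeats 400000
set_option linter.style.haveILetI false

noncomputable section

open Polynomial IntermediateField ModularCurve

namespace Fermat.Agent.S30.E2.GaussUnramAltMain

open Fermat.Agent.S18.K1Defs Fermat.Agent.S18.K1Main Fermat.Agent.S30

local notation "Qb" => AlgebraicClosure ℚ

/-- **E2.G, generic form** (= field `gauss` of `S18.K1Main.JInputs`, for one `π`). -/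
theorem gaussUnram_jE (N : ℕ) [NeZero N] {O E : Type} [CommRing O] [IsDomain O]
    [IsDiscreteValuationRing O] [Field E] [CharZero E] [Algebra O E] [IsFractionRing O E]
    [Algebra ℚ E] [Algebra O (LE N E)] [IsScalarTower O E (LE N E)]
    (ι : E →+* ℂ) {ζ₀ : O} (hζ₀ : IsPrimitiveRoot ζ₀ N) (hN : IsUnit (N : O))
    (π : O) (hπ : Irreducible π) :
    Model.GaussUnram (E := E) π (Fermat.Agent.S18.K1Main.jE N E) := by
  have hres : IsLocalRing.residue O π = 0 := by
    rw [IsLocalRing.residue_eq_zero_iff, IsLocalRing.mem_maximalIdeal, mem_nonunits_iff]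
    exact hπ.not_isUnit
  exact GaussUnramAlt.gaussUnram_body N (IsFractionRing.injective O E) ι hζ₀ hN π
    (IsLocalRing.residue O) hres

/-- **E2.G for `O_E`**, canonical `O_E`-algebra structure on `LE N E`. -/
theorem gaussUnram_OE (N : ℕ) [NeZero N] (A : ValuationSubring Qb) (E : IntermediateField ℚ Qb)
    [IsDiscreteValuationRing (OE A E)] {ℓ : ℕ} (hA : A.LiesOverPrime ℓ) (hNℓ : Nat.Coprime N ℓ)
    {z : Qb} (hz : IsPrimitiveRoot z N) (hzE : z ∈ E) (π : OE A E) (hπ : Irreducible π) :
    letI := algebraOL (OE A E) E (LE N E)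
    haveI := isScalarTower_OL (OE A E) E (LE N E)
    Model.GaussUnram (E := E) π (Fermat.Agent.S18.K1Main.jE N E) := by
  letI := algebraOL (OE A E) E (LE N E)
  haveI := isScalarTower_OL (OE A E) E (LE N E)
  obtain ⟨ζ, hζ⟩ := exists_primitiveRoot_OE A E (Nat.pos_of_ne_zero (NeZero.ne N)) hz hzE
  exact gaussUnram_jE N (E2Deg.iotaE E) hζ (isUnit_natCast_OE A E hA N hNℓ) π hπ

end Fermat.Agent.S30.E2.GaussUnramAltMain
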