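/-
S30 / E2 integration (helper80): the four modular inputs `JInputs` of the Model Theorem for
`(LE N E, j)` over `O_E = A ∩ E`, assembled from the landed providers
(E2.Deg `DegreeL`, E2.G `GaussUnramAltMain`, E2.H `Horiz`, E2.LP `Inst.LocPow`), and the resulting
`K1Modular N A p` for residue characteristic `ℓ > 3`, `ℓ ∤ N` (through `S18.K1Main`).
-/
import Mathlib
import Fermat.Agent.S30.E2.GaussUnramAltMain
import Fermat.Agent.S30.E2.Horiz
import Fermat.Agent.S30.Inst.LocPow
import Fermat.Agent.S18.K1Main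

set_option autoImplicit false
set_option synthInstance.maxHeartbeats 400000
set_option linter.style.haveILetI false

noncomputable section

open Polynomial IntermediateField ModularCurve

namespace Fermat.Agent.S30.E2.JInputsAll

open Fermat.Agent.S18.K1Defs Fermat.Agent.S18.K1Main Fermat.Agent.S30

local notation "Qb" => AlgebraicClosure ℚ

/-- **All four inputs of the Model Theorem** for `(LE N E, j)` over `O_E`, for a valuation ring
`A` of `ℚ̄` over a prime `ℓ ∤ N` and a subfield `E ⊆ ℚ̄` containing a primitive `N`-th root of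
unity. -/
theorem jInputsC_OE (N : ℕ) [NeZero N] (A : ValuationSubring Qb) (E : IntermediateField ℚ Qb)
    [IsDiscreteValuationRing (OE A E)] {ℓ : ℕ} (hA : A.LiesOverPrime ℓ) (hNℓ : Nat.Coprime N ℓ)
    {z : Qb} (hz : IsPrimitiveRoot z N) (hzE : z ∈ E) (p : ℕ) :
    JInputsC N (OE A E) E p := by
  letI := algebraOL (OE A E) E (LE N E)
  haveI := isScalarTower_OL (OE A E) E (LE N E)
  haveI hfin : FiniteDimensional E⟮Fermat.Agent.S18.K1Main.jE N E⟯ (LE N E) :=
    E2Deg.finite_LE N E
  show JInputs N (OE A E) E p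
  exact
    { fin := hfin
      gauss := fun π hπ => GaussUnramAltMain.gaussUnram_OE N A E hA hNℓ hz hzE π hπ
      horiz := fun S h0 h1728 =>
        Horiz.horizUnram_intermediate N E (Fermat.Agent.S18.K1Main.jE N E) rfl S
          ⟨0, h0, map_zero _⟩ ⟨1728, h1728, map_ofNat _ _⟩
      locPow := fun g hg h =>
        Inst.locPow_of_forall_place (Fermat.Agent.S18.K1Main.jE N E)
          (E2Deg.transcendental_jE N E) p g hg h }

/-- **`K1Modular N A p` for residue characteristic `ℓ > 3`, `ℓ ∤ N`, `p ≠ ℓ`** (through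
`S18.K1Main.k1Modular_of_jInputs`, i.e. modulo the Model Theorem it cites). -/
theorem k1Modular_of_three_lt (N : ℕ) [NeZero N] (A : ValuationSubring Qb) {ℓ : ℕ}
    [Fact ℓ.Prime] (hA : A.LiesOverPrime ℓ) (hℓ : 3 < ℓ) (hℓN : ¬ ℓ ∣ N) (p : ℕ) (hp : p.Prime)
    (hpℓ : p ≠ ℓ) : K1Modular N A p := by
  have hℓp : ℓ.Prime := Fact.out
  have : NeZero (N : Qb) := ⟨Nat.cast_ne_zero.mpr (NeZero.ne N)⟩
  obtain ⟨z, hz⟩ := HasEnoughRootsOfUnity.exists_primitiveRoot Qb N
  have hNℓ : Nat.Coprime N ℓ := (Nat.coprime_comm.mp ((Nat.Prime.coprime_iff_not_dvd hℓp).mpr hℓN))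
  exact k1Modular_of_jInputs A N hA hℓ p hp hpℓ
    ⟨{z}, fun E _ _ hE => jInputsC_OE N A E hA hNℓ hz (hE z (Finset.mem_singleton_self z)) p⟩

end Fermat.Agent.S30.E2.JInputsAll
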