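import Mathlib
import Fermat.Agent.S24.Modular.M3

/-!
# E2.Deg : the degree of the modular function field over `E(j)` for every field `E ⊇ ℚ`

* `Abs.*` : linear disjointness of `E((q))` and `Ω` over `E` inside `Ω((q))`, and its
  consequence: degrees of subfields of `E((q))` do not change under base change of constants.
* `jE N E`, `transcendental_jE`, `finite_LE`, `finrank_LE` : the modular instance
  (`[LE N E : E(j)] = ψ(N)` for every field `E` of characteristic zero).
-/

set_option autoImplicit false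

namespace Fermat.Agent.S30.E2.Degree

open ModularCurve IntermediateField HahnSeries

noncomputable section

namespace Abs

section Coeff

variable {E Ω : Type*} [Field E] [Field Ω] [Algebra E Ω]

/-- coefficientwise base change `E((q)) → Ω((q))` -/
abbrev iota : LaurentSeries E →+* LaurentSeries Ω := coeffMap (algebraMap E Ω)

theorem iota_injective : Function.Injective (iota (E := E) (Ω := Ω)) := by
  intro x y h
  ext n
  have h1 := congrArg (fun z : LaurentSeries Ω => z.coeff n) h
  simp only [coeffMap_coeff] at h1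
  exact (algebraMap E Ω).injective h1

theorem iota_algebraMap (e : E) :
    iota (algebraMap E (LaurentSeries E) e)
      = algebraMap Ω (LaurentSeries Ω) (algebraMap E Ω e) := by
  rw [algebraMap_laurentSeries_eq_single, algebraMap_laurentSeries_eq_single]
  exact coeffMap_single _ _ _

/-- coefficientwise application of an `E`-linear functional on `Ω` -/
def dualMap (φ : Ω →ₗ[E] E) : LaurentSeries Ω →+ LaurentSeries E where
  toFun w := w.map φ
  map_zero' := by ext k; simp
  map_add' x y := by ext k; simp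

@[simp] theorem dualMap_coeff (φ : Ω →ₗ[E] E) (w : LaurentSeries Ω) (n : ℤ) :
    (dualMap φ w).coeff n = φ (w.coeff n) := rfl

theorem dualMap_iota_mul (φ : Ω →ₗ[E] E) (z : LaurentSeries E) (w : LaurentSeries Ω) :
    dualMap φ (iota z * w) = z * dualMap φ w := by
  ext a
  have h1 : (iota (Ω := Ω) z).support ⊆ z.support := by
    intro n hn
    rw [HahnSeries.mem_support] at hn ⊢
    intro h0
    apply hn
    rw [coeffMap_coeff, h0, map_zero]
  have h2 : (dualMap φ w).support ⊆ w.support := by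
    intro n hn
    rw [HahnSeries.mem_support] at hn ⊢
    intro h0
    apply hn
    rw [dualMap_coeff, h0, map_zero]
  rw [dualMap_coeff, HahnSeries.coeff_mul_left' z.isPWO_support h1,
    HahnSeries.coeff_mul_right' w.isPWO_support h2, map_sum]
  refine Finset.sum_congr rfl fun ij _ => ?_
  rw [coeffMap_coeff, dualMap_coeff, ← Algebra.smul_def, map_smul, smul_eq_mul]

theorem dualMap_algebraMap (φ : Ω →ₗ[E] E) (ω : Ω) :
    dualMap φ (algebraMap Ω (LaurentSeries Ω) ω) = algebraMap E (LaurentSeries E) (φ ω) := by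
  rw [algebraMap_laurentSeries_eq_single, algebraMap_laurentSeries_eq_single]
  ext n
  rw [dualMap_coeff]
  rcases eq_or_ne n 0 with rfl | hn
  · simp [HahnSeries.coeff_single_same]
  · simp [HahnSeries.coeff_single_of_ne hn]

theorem dualMap_algebraMap_mul (φ : Ω →ₗ[E] E) (ω : Ω) (w : LaurentSeries Ω) :
    dualMap φ (algebraMap Ω (LaurentSeries Ω) ω * w)
      = dualMap (φ.comp (LinearMap.mulLeft E ω)) w := by
  ext n
  rw [dualMap_coeff, dualMap_coeff, algebraMap_laurentSeries_eq_single,
    ← HahnSeries.C_apply, HahnSeries.C_mul_eq_smul, HahnSeries.coeff_smul]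
  simp

theorem eq_zero_of_dualMap (w : LaurentSeries Ω)
    (h : ∀ φ : Ω →ₗ[E] E, dualMap φ w = 0) : w = 0 := by
  ext n
  have h1 : ∀ φ : Module.Dual E Ω, φ (w.coeff n) = 0 := fun φ => by
    have h2 := congrArg (fun z : LaurentSeries E => z.coeff n) (h φ)
    simpa using h2
  exact (Module.forall_dual_apply_eq_zero_iff E (w.coeff n)).mp h1

end Coeff

section LD

variable {E Ω : Type*} [Field E] [Field Ω] [Algebra E Ω]
variable (LE : IntermediateField E (LaurentSeries E))
  (LΩ : IntermediateField Ω (LaurentSeries Ω))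
  (hL : ∀ x ∈ LE, iota (Ω := Ω) x ∈ LΩ)

/-- the restriction of `iota` to a pair of subfields -/
def rho : LE →+* LΩ :=
  (iota.comp (algebraMap LE (LaurentSeries E))).codRestrict LΩ fun x => hL x x.2

theorem coe_rho (x : LE) :
    ((rho LE LΩ hL x : LΩ) : LaurentSeries Ω) = iota (x : LaurentSeries E) := rfl

theorem rho_injective : Function.Injective (rho LE LΩ hL) :=
  (rho LE LΩ hL).injective

theorem rho_algebraMap (e : E) :
    rho LE LΩ hL (algebraMap E LE e) = algebraMap Ω LΩ (algebraMap E Ω e) :=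
  Subtype.ext (iota_algebraMap e)

theorem dualMap_mem_of_mem_adjoin (K₁ : IntermediateField E LE) {r : LΩ}
    (hr : r ∈ Algebra.adjoin Ω (rho LE LΩ hL '' (K₁ : Set LE))) (φ : Ω →ₗ[E] E) :
    ∃ κ : K₁, dualMap φ (r : LaurentSeries Ω) = ((κ : LE) : LaurentSeries E) := by
  have hspan : r ∈ Submodule.span Ω (rho LE LΩ hL '' (K₁ : Set LE)) := by
    have h1 := Algebra.adjoin_eq_span (R := Ω) (s := rho LE LΩ hL '' (K₁ : Set LE))
    have h2 : (Submonoid.closure (rho LE LΩ hL '' (K₁ : Set LE)) : Set LΩ)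
        = rho LE LΩ hL '' (K₁ : Set LE) := by
      have h4 : rho LE LΩ hL '' (K₁ : Set LE)
          = ((K₁.toSubfield.toSubring.toSubmonoid.map
              (rho LE LΩ hL : LE →* LΩ) : Submonoid LΩ) : Set LΩ) := rfl
      rw [h4, Submonoid.closure_eq]
    have h3 : r ∈ Subalgebra.toSubmodule
        (Algebra.adjoin Ω (rho LE LΩ hL '' (K₁ : Set LE))) := hr
    rw [h1, h2] at h3
    exact h3
  clear hr
  induction hspan using Submodule.span_induction generalizing φ with
  | mem r hr =>
    obtain ⟨x, hx, rfl⟩ := hr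
    refine ⟨⟨x, hx⟩ * algebraMap E K₁ (φ 1), ?_⟩
    have h5 := dualMap_iota_mul φ (x : LaurentSeries E) 1
    rw [mul_one] at h5
    rw [coe_rho, h5, ← map_one (algebraMap Ω (LaurentSeries Ω)), dualMap_algebraMap]
    rfl
  | zero => exact ⟨0, by simp⟩
  | add r r' _ _ hr hr' =>
    obtain ⟨κ, hκ⟩ := hr φ
    obtain ⟨κ', hκ'⟩ := hr' φ
    refine ⟨κ + κ', ?_⟩
    have h6 : ((r + r' : LΩ) : LaurentSeries Ω)
        = (r : LaurentSeries Ω) + (r' : LaurentSeries Ω) := rfl
    rw [h6, map_add, hκ, hκ']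
    rfl
  | smul ω r _ hr =>
    obtain ⟨κ, hκ⟩ := hr (φ.comp (LinearMap.mulLeft E ω))
    refine ⟨κ, ?_⟩
    rw [← hκ, ← dualMap_algebraMap_mul]
    rfl

theorem eq_zero_of_sum_mul_rho {I : Type*} (K₁ : IntermediateField E LE) (y : I → LE)
    (hy : LinearIndependent K₁ y) (s : Finset I) (R : I → LΩ)
    (hR : ∀ i ∈ s, R i ∈ Algebra.adjoin Ω (rho LE LΩ hL '' (K₁ : Set LE)))
    (hsum : ∑ i ∈ s, R i * rho LE LΩ hL (y i) = 0) : ∀ i ∈ s, R i = 0 := by
  classical
  have key : ∀ φ : Ω →ₗ[E] E, ∀ i ∈ s, dualMap φ (R i : LaurentSeries Ω) = 0 := by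
    intro φ
    have hex : ∀ i, ∃ κ : K₁, i ∈ s →
        dualMap φ (R i : LaurentSeries Ω) = ((κ : LE) : LaurentSeries E) := by
      intro i
      by_cases hi : i ∈ s
      · obtain ⟨κ, hκ⟩ := dualMap_mem_of_mem_adjoin LE LΩ hL K₁ (hR i hi) φ
        exact ⟨κ, fun _ => hκ⟩
      · exact ⟨0, fun h => absurd h hi⟩
    choose κ hκ using hex
    have h0 : ∑ i ∈ s, κ i • y i = 0 := by
      apply Subtype.ext
      have h1 : dualMap φ ((∑ i ∈ s, R i * rho LE LΩ hL (y i) : LΩ) : LaurentSeries Ω) = 0 := by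
        rw [hsum]; simp
      rw [AddSubmonoidClass.coe_finsetSum, map_sum] at h1
      rw [AddSubmonoidClass.coe_finsetSum, ZeroMemClass.coe_zero, ← h1]
      refine Finset.sum_congr rfl fun i hi => ?_
      rw [MulMemClass.coe_mul, coe_rho, mul_comm, dualMap_iota_mul, hκ i hi, mul_comm]
      rfl
    intro i hi
    have h2 := linearIndependent_iff'.mp hy s κ h0 i hi
    rw [hκ i hi, h2]
    rfl
  intro i hi
  exact Subtype.ext (eq_zero_of_dualMap _ fun φ => key φ i hi)

/-- **Linear disjointness.** A family of `LE` that is linearly independent over `K₁` stays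
linearly independent over any subfield `K₂` of `LΩ` generated by `Ω` and the image of `K₁`. -/
theorem linearIndependent_rho {I : Type*} (K₁ : IntermediateField E LE)
    (K₂ : IntermediateField Ω LΩ)
    (hK : K₂ ≤ IntermediateField.adjoin Ω (rho LE LΩ hL '' (K₁ : Set LE)))
    (y : I → LE) (hy : LinearIndependent K₁ y) :
    LinearIndependent K₂ (rho LE LΩ hL ∘ y) := by
  classical
  rw [linearIndependent_iff']
  intro s g hg i hi
  have hden : ∀ t : Finset I, ∃ D ∈ Algebra.adjoin Ω (rho LE LΩ hL '' (K₁ : Set LE)), D ≠ 0 ∧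
      ∀ i ∈ t, (g i : LΩ) * D ∈ Algebra.adjoin Ω (rho LE LΩ hL '' (K₁ : Set LE)) := by
    intro t
    induction t using Finset.induction_on with
    | empty => exact ⟨1, one_mem _, one_ne_zero, by simp⟩
    | insert a t _ ih =>
      obtain ⟨D, hD, hD0, hDt⟩ := ih
      obtain ⟨r, hr, d, hd, hrd⟩ := IntermediateField.mem_adjoin_iff_div.mp (hK (g a).2)
      by_cases hd0 : d = 0
      · refine ⟨D, hD, hD0, fun i hi => ?_⟩
        rcases Finset.mem_insert.mp hi with rfl | hi
        · rw [hrd, hd0, div_zero, zero_mul]; exact zero_mem _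
        · exact hDt i hi
      · refine ⟨D * d, mul_mem hD hd, mul_ne_zero hD0 hd0, fun i hi => ?_⟩
        rcases Finset.mem_insert.mp hi with rfl | hi
        · have h1 : (g i : LΩ) * (D * d) = r * D := by rw [hrd]; field_simp
          rw [h1]; exact mul_mem hr hD
        · have h1 : (g i : LΩ) * (D * d) = ((g i : LΩ) * D) * d := by ring
          rw [h1]; exact mul_mem (hDt i hi) hd
  obtain ⟨D, hD, hD0, hDs⟩ := hden s
  have hsum : ∑ i ∈ s, ((g i : LΩ) * D) * rho LE LΩ hL (y i) = 0 := by
    have h1 : ∑ i ∈ s, ((g i : LΩ) * D) * rho LE LΩ hL (y i)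
        = D * ∑ i ∈ s, g i • (rho LE LΩ hL ∘ y) i := by
      rw [Finset.mul_sum]
      refine Finset.sum_congr rfl fun i _ => ?_
      rw [Algebra.smul_def]
      change _ = D * ((g i : LΩ) * rho LE LΩ hL (y i))
      ring
    rw [h1, hg, mul_zero]
  have h0 := eq_zero_of_sum_mul_rho LE LΩ hL K₁ y hy s (fun i => (g i : LΩ) * D) hDs hsum i hi
  have h2 : (g i : LΩ) = 0 := by
    rcases mul_eq_zero.mp h0 with h | h
    · exact h
    · exact absurd h hD0
  exact Subtype.ext h2

/-- **Spanning.** If `LΩ` is generated over `Ω` by the image of `LE`, a finite spanning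
family of `LE` over `K₁` spans `LΩ` over any `K₂ ⊇ ρ(K₁)`. -/
theorem span_rho_eq_top {I : Type*} [Finite I] (K₁ : IntermediateField E LE)
    (K₂ : IntermediateField Ω LΩ) (hK' : ∀ x : K₁, rho LE LΩ hL x ∈ K₂)
    (hgen : IntermediateField.adjoin Ω (Set.range (rho LE LΩ hL)) = ⊤)
    (y : I → LE) (hy : Submodule.span K₁ (Set.range y) = ⊤) :
    Submodule.span K₂ (Set.range (rho LE LΩ hL ∘ y)) = ⊤ := by
  have hM : Subalgebra.toSubmodule (Algebra.adjoin K₂ (Set.range (rho LE LΩ hL)))
      = Submodule.span K₂ (Set.range (rho LE LΩ hL ∘ y)) := by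
    rw [Algebra.adjoin_eq_span]
    have h2 : (Submonoid.closure (Set.range (rho LE LΩ hL)) : Set LΩ)
        = Set.range (rho LE LΩ hL) := by
      have h4 : Set.range (rho LE LΩ hL)
          = ((MonoidHom.mrange (rho LE LΩ hL : LE →* LΩ) : Submonoid LΩ) : Set LΩ) := rfl
      rw [h4, Submonoid.closure_eq]
    rw [h2]
    apply le_antisymm
    · rw [Submodule.span_le]
      rintro _ ⟨x, rfl⟩
      have hx : x ∈ Submodule.span K₁ (Set.range y) := by rw [hy]; trivial
      induction hx using Submodule.span_induction with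
      | mem x hx =>
        obtain ⟨i, rfl⟩ := hx
        exact Submodule.subset_span ⟨i, rfl⟩
      | zero => rw [map_zero]; exact zero_mem _
      | add x x' _ _ hx hx' => rw [map_add]; exact add_mem hx hx'
      | smul κ x _ hx =>
        have h5 : rho LE LΩ hL (κ • x)
            = (⟨rho LE LΩ hL κ, hK' κ⟩ : K₂) • rho LE LΩ hL x := by
          rw [Algebra.smul_def, map_mul, Algebra.smul_def]
          rfl
        rw [h5]
        exact Submodule.smul_mem _ _ hx
    · apply Submodule.span_mono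
      rintro _ ⟨i, rfl⟩
      exact ⟨y i, rfl⟩
  have hfg : (Subalgebra.toSubmodule (Algebra.adjoin K₂ (Set.range (rho LE LΩ hL)))).FG := by
    rw [hM]
    exact Submodule.fg_span (Set.finite_range _)
  haveI hfin : Module.Finite K₂ (Algebra.adjoin K₂ (Set.range (rho LE LΩ hL))) :=
    Module.Finite.iff_fg.mpr hfg
  have hinv : ∀ x ∈ Algebra.adjoin K₂ (Set.range (rho LE LΩ hL)),
      x⁻¹ ∈ Algebra.adjoin K₂ (Set.range (rho LE LΩ hL)) := by
    intro x hx
    have h6 : IsAlgebraic K₂ (⟨x, hx⟩ : Algebra.adjoin K₂ (Set.range (rho LE LΩ hL))) :=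
      Algebra.IsAlgebraic.isAlgebraic _
    have h7 : IsAlgebraic K₂ x :=
      (isAlgebraic_algHom_iff (Algebra.adjoin K₂ (Set.range (rho LE LΩ hL))).val
        Subtype.val_injective (a := ⟨x, hx⟩)).mpr h6
    exact Subalgebra.inv_mem_of_algebraic _ (x := ⟨x, hx⟩) h7
  have htop : ∀ w : LΩ, w ∈ Algebra.adjoin K₂ (Set.range (rho LE LΩ hL)) := by
    intro w
    have h8 : IntermediateField.adjoin Ω (Set.range (rho LE LΩ hL))
        ≤ ((Algebra.adjoin K₂ (Set.range (rho LE LΩ hL))).toIntermediateField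
            hinv).restrictScalars Ω := by
      rw [IntermediateField.adjoin_le_iff]
      intro x hx
      exact Algebra.subset_adjoin hx
    have h9 : w ∈ IntermediateField.adjoin Ω (Set.range (rho LE LΩ hL)) := by
      rw [hgen]; trivial
    exact h8 h9
  rw [← hM, eq_top_iff]
  intro w _
  exact htop w

/-- Going up: finiteness and the degree transfer from `LE / K₁` to `LΩ / K₂`. -/
theorem finite_and_finrank_up (K₁ : IntermediateField E LE) (K₂ : IntermediateField Ω LΩ)
    (hK : K₂ ≤ IntermediateField.adjoin Ω (rho LE LΩ hL '' (K₁ : Set LE)))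
    (hK' : ∀ x : K₁, rho LE LΩ hL x ∈ K₂)
    (hgen : IntermediateField.adjoin Ω (Set.range (rho LE LΩ hL)) = ⊤)
    [Module.Finite K₁ LE] :
    Module.Finite K₂ LΩ ∧ Module.finrank K₂ LΩ = Module.finrank K₁ LE := by
  have hli : LinearIndependent K₂ (rho LE LΩ hL ∘ Module.finBasis K₁ LE) :=
    linearIndependent_rho LE LΩ hL K₁ K₂ hK _ (Module.finBasis K₁ LE).linearIndependent
  have hsp : Submodule.span K₂ (Set.range (rho LE LΩ hL ∘ Module.finBasis K₁ LE)) = ⊤ :=
    span_rho_eq_top LE LΩ hL K₁ K₂ hK' hgen _ (Module.finBasis K₁ LE).span_eq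
  exact ⟨Module.Finite.of_basis (Module.Basis.mk hli hsp.ge),
    by rw [Module.finrank_eq_card_basis (Module.Basis.mk hli hsp.ge), Fintype.card_fin]⟩

/-- Going down: finiteness of `LΩ / K₂` implies finiteness of `LE / K₁`. -/
theorem finite_down (K₁ : IntermediateField E LE) (K₂ : IntermediateField Ω LΩ)
    (hK : K₂ ≤ IntermediateField.adjoin Ω (rho LE LΩ hL '' (K₁ : Set LE)))
    [Module.Finite K₂ LΩ] : Module.Finite K₁ LE := by
  rw [← Module.rank_lt_aleph0_iff]
  have h1 : Module.rank K₁ LE ≤ (Module.finrank K₂ LΩ : ℕ) := by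
    apply rank_le
    intro s hs
    have h2 := linearIndependent_rho LE LΩ hL K₁ K₂ hK _ hs
    have h3 := h2.fintype_card_le_finrank
    simpa using h3
  exact lt_of_le_of_lt h1 Cardinal.natCast_lt_aleph0

end LD

section BaseChange

variable (F₀ : IntermediateField ℚ (LaurentSeries ℚ))
variable (E Ω : Type*) [Field E] [Field Ω] [Algebra ℚ E] [Algebra ℚ Ω] [Algebra E Ω]

theorem iota_coeffEmb (x : LaurentSeries ℚ) :
    iota (Ω := Ω) (coeffEmb E x) = coeffEmb Ω x := by
  rw [coeffEmb, coeffEmb, coeffMap_coeffMap]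
  exact coeffMap_congr (Subsingleton.elim _ _) x

variable {E} in
theorem iota_mem_laurentBaseChange {x : LaurentSeries E} (hx : x ∈ laurentBaseChange E F₀) :
    iota (Ω := Ω) x ∈ laurentBaseChange Ω F₀ := by
  rw [mem_laurentBaseChange_iff] at hx
  induction hx using Subfield.closure_induction with
  | mem y hy =>
      rcases hy with ⟨a, rfl⟩ | ⟨z, hz, rfl⟩
      · rw [iota_algebraMap]
        exact (laurentBaseChange Ω F₀).algebraMap_mem _
      · rw [iota_coeffEmb]
        exact coeffEmb_mem_laurentBaseChange Ω hz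
  | one => rw [map_one]; exact one_mem _
  | add x y _ _ hx hy => rw [map_add]; exact add_mem hx hy
  | neg x _ hx => rw [map_neg]; exact neg_mem hx
  | inv x _ hx => rw [map_inv₀]; exact inv_mem hx
  | mul x y _ _ hx hy => rw [map_mul]; exact mul_mem hx hy

/-- base change of constants `E → Ω` on the function fields `laurentBaseChange · F₀` -/
abbrev rhoBC : laurentBaseChange E F₀ →+* laurentBaseChange Ω F₀ :=
  rho (laurentBaseChange E F₀) (laurentBaseChange Ω F₀)
    (fun _ hx => iota_mem_laurentBaseChange F₀ Ω hx)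

/-- the element of `laurentBaseChange E F₀` defined by an element of `F₀` -/
def embF (x : F₀) : laurentBaseChange E F₀ :=
  ⟨coeffEmb E x, coeffEmb_mem_laurentBaseChange E x.2⟩

@[simp] theorem coe_embF (x : F₀) :
    ((embF F₀ E x : laurentBaseChange E F₀) : LaurentSeries E) = coeffEmb E x := rfl

theorem rhoBC_embF (x : F₀) : rhoBC F₀ E Ω (embF F₀ E x) = embF F₀ Ω x :=
  Subtype.ext (iota_coeffEmb E Ω x)

theorem adjoin_range_rhoBC :
    IntermediateField.adjoin Ω (Set.range (rhoBC F₀ E Ω)) = ⊤ := by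
  rw [eq_top_iff]
  rintro ⟨w, hw⟩ -
  have h1 : laurentBaseChange Ω F₀
      ≤ IntermediateField.lift (IntermediateField.adjoin Ω (Set.range (rhoBC F₀ E Ω))) := by
    refine IntermediateField.adjoin_le_iff.mpr ?_
    rintro _ ⟨x0, hx0, rfl⟩
    have h2 : embF F₀ Ω ⟨x0, hx0⟩
        ∈ IntermediateField.adjoin Ω (Set.range (rhoBC F₀ E Ω)) :=
      IntermediateField.subset_adjoin _ _ ⟨embF F₀ E ⟨x0, hx0⟩, rhoBC_embF F₀ E Ω _⟩
    exact (IntermediateField.mem_lift (embF F₀ Ω ⟨x0, hx0⟩)).mpr h2
  exact (IntermediateField.mem_lift (⟨w, hw⟩ : laurentBaseChange Ω F₀)).mp (h1 hw)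

theorem adjoin_simple_le (j₀ : F₀) :
    Ω⟮embF F₀ Ω j₀⟯ ≤ IntermediateField.adjoin Ω
      (rhoBC F₀ E Ω '' ((E⟮embF F₀ E j₀⟯ : IntermediateField E (laurentBaseChange E F₀)) :
        Set (laurentBaseChange E F₀))) := by
  rw [IntermediateField.adjoin_le_iff]
  rintro _ rfl
  exact IntermediateField.subset_adjoin _ _
    ⟨embF F₀ E j₀, IntermediateField.mem_adjoin_simple_self E _, rhoBC_embF F₀ E Ω j₀⟩

theorem rhoBC_mem_adjoin_simple (j₀ : F₀) (x : E⟮embF F₀ E j₀⟯) :
    rhoBC F₀ E Ω x ∈ Ω⟮embF F₀ Ω j₀⟯ := by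
  obtain ⟨x, hx⟩ := x
  induction hx using IntermediateField.adjoin_induction with
  | mem x hx =>
    rw [Set.mem_singleton_iff] at hx
    subst hx
    rw [rhoBC_embF]
    exact IntermediateField.mem_adjoin_simple_self Ω _
  | algebraMap c =>
    rw [rho_algebraMap]
    exact IntermediateField.algebraMap_mem _ _
  | add x y hx hy ihx ihy => rw [map_add]; exact add_mem ihx ihy
  | inv x hx ih => rw [map_inv₀]; exact inv_mem ih
  | mul x y hx hy ihx ihy => rw [map_mul]; exact mul_mem ihx ihy

/-- **Base change of constants does not change the degree** (going up). -/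
theorem finite_and_finrank_baseChange_up (j₀ : F₀)
    [Module.Finite E⟮embF F₀ E j₀⟯ (laurentBaseChange E F₀)] :
    Module.Finite Ω⟮embF F₀ Ω j₀⟯ (laurentBaseChange Ω F₀) ∧
      Module.finrank Ω⟮embF F₀ Ω j₀⟯ (laurentBaseChange Ω F₀)
        = Module.finrank E⟮embF F₀ E j₀⟯ (laurentBaseChange E F₀) :=
  finite_and_finrank_up _ _ _ _ _ (adjoin_simple_le F₀ E Ω j₀)
    (rhoBC_mem_adjoin_simple F₀ E Ω j₀) (adjoin_range_rhoBC F₀ E Ω)

/-- **Base change of constants does not change the degree** (going down). -/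
theorem finite_and_finrank_baseChange_down (j₀ : F₀)
    [Module.Finite Ω⟮embF F₀ Ω j₀⟯ (laurentBaseChange Ω F₀)] :
    Module.Finite E⟮embF F₀ E j₀⟯ (laurentBaseChange E F₀) ∧
      Module.finrank E⟮embF F₀ E j₀⟯ (laurentBaseChange E F₀)
        = Module.finrank Ω⟮embF F₀ Ω j₀⟯ (laurentBaseChange Ω F₀) := by
  haveI : Module.Finite E⟮embF F₀ E j₀⟯ (laurentBaseChange E F₀) :=
    finite_down _ _ _ _ _ (adjoin_simple_le F₀ E Ω j₀)
  exact ⟨this, (finite_and_finrank_baseChange_up F₀ E Ω j₀).2.symm⟩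

/-- transcendence descends along base change of constants -/
theorem transcendental_embF_down (j₀ : F₀) (h : Transcendental Ω (embF F₀ Ω j₀)) :
    Transcendental E (embF F₀ E j₀) := by
  intro halg
  apply h
  obtain ⟨p, hp0, hp⟩ := halg
  refine ⟨p.map (algebraMap E Ω), ?_, ?_⟩
  · exact (Polynomial.map_ne_zero_iff (f := algebraMap E Ω) (algebraMap E Ω).injective).mpr hp0
  · have h1 := congrArg (rhoBC F₀ E Ω) hp
    rw [map_zero, Polynomial.aeval_def, Polynomial.hom_eval₂, rhoBC_embF] at h1
    have h2 : (rhoBC F₀ E Ω).comp (algebraMap E (laurentBaseChange E F₀))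
        = (algebraMap Ω (laurentBaseChange Ω F₀)).comp (algebraMap E Ω) :=
      RingHom.ext fun e => rho_algebraMap (laurentBaseChange E F₀) (laurentBaseChange Ω F₀)
        (fun _ hx => iota_mem_laurentBaseChange F₀ Ω hx) e
    rw [h2] at h1
    rw [Polynomial.aeval_def, Polynomial.eval₂_map]
    exact h1

end BaseChange

end Abs

/-! ## The modular instance -/

section Modular

open Fermat.Agent.S24.Modular

/-- `j`, as an element of `ℚ(j(q^d) : d ∣ N) ⊆ ℚ((q))`. -/
def jQ (N : ℕ) : modularFunctionFieldFull N :=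
  ⟨jq, by have h := jqd_mem_full N (one_dvd N); rwa [qExpand_one_apply] at h⟩

/-- `j`, as an element of the level-`N` modular function field with constant field `E`
(`= S18.K1Defs.LE N E`). -/
def jE (N : ℕ) (E : Type*) [Field E] [Algebra ℚ E] :
    laurentBaseChange E (modularFunctionFieldFull N) :=
  Abs.embF (modularFunctionFieldFull N) E (jQ N)

@[simp] theorem coe_jE (N : ℕ) (E : Type*) [Field E] [Algebra ℚ E] :
    ((jE N E : laurentBaseChange E (modularFunctionFieldFull N)) : LaurentSeries E)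
      = coeffEmb E jq := rfl

theorem jE_bar (N : ℕ) : jE N Kbar = jF N := rfl

/-- **E2.Deg.** For every field `E` of characteristic zero, the level-`N` modular function
field with constants `E` is finite of degree `ψ(N)` over `E(j)`. -/
theorem finite_and_finrank_LE (N : ℕ) [NeZero N] (E : Type*) [Field E] [Algebra ℚ E] :
    Module.Finite E⟮jE N E⟯ (laurentBaseChange E (modularFunctionFieldFull N)) ∧
      Module.finrank E⟮jE N E⟯ (laurentBaseChange E (modularFunctionFieldFull N))
        = dedekindPsi N := by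
  have hc0 : CharZero E := algebraRat.charZero E
  have halg : Algebra.IsAlgebraic ℚ Kbar := AlgebraicClosure.isAlgebraic ℚ
  let f : Kbar →ₐ[ℚ] AlgebraicClosure E := IsAlgClosed.lift
  letI : Algebra Kbar (AlgebraicClosure E) := f.toRingHom.toAlgebra
  haveI h0 : Module.Finite Kbar⟮Abs.embF (modularFunctionFieldFull N) Kbar (jQ N)⟯
      (laurentBaseChange Kbar (modularFunctionFieldFull N)) := finite_jF N
  obtain ⟨h1, h2⟩ := Abs.finite_and_finrank_baseChange_up (modularFunctionFieldFull N)
    Kbar (AlgebraicClosure E) (jQ N)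
  haveI := h1
  obtain ⟨h3, h4⟩ := Abs.finite_and_finrank_baseChange_down (modularFunctionFieldFull N)
    E (AlgebraicClosure E) (jQ N)
  refine ⟨h3, ?_⟩
  have h5 : Module.finrank E⟮jE N E⟯ (laurentBaseChange E (modularFunctionFieldFull N))
      = Module.finrank Kbar⟮Abs.embF (modularFunctionFieldFull N) Kbar (jQ N)⟯
        (laurentBaseChange Kbar (modularFunctionFieldFull N)) := h4.trans h2
  rw [h5]
  exact finrank_jF N

instance finite_LE (N : ℕ) [NeZero N] (E : Type*) [Field E] [Algebra ℚ E] :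
    Module.Finite E⟮jE N E⟯ (laurentBaseChange E (modularFunctionFieldFull N)) :=
  (finite_and_finrank_LE N E).1

theorem finrank_LE (N : ℕ) [NeZero N] (E : Type*) [Field E] [Algebra ℚ E] :
    Module.finrank E⟮jE N E⟯ (laurentBaseChange E (modularFunctionFieldFull N))
      = dedekindPsi N :=
  (finite_and_finrank_LE N E).2

/-- `j` is transcendental over the constants. -/
theorem transcendental_jE (N : ℕ) (E : Type*) [Field E] [Algebra ℚ E] :
    Transcendental E (jE N E) := by
  have hc0 : CharZero E := algebraRat.charZero E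
  refine Abs.transcendental_embF_down (modularFunctionFieldFull N) E (AlgebraicClosure E)
    (jQ N) ?_
  refine Fermat.Agent.S24.FF.transcendental_of_not_mem_range ?_
  rintro ⟨c, hc⟩
  apply Fermat.Agent.S24.DegreeGen.coeffEmb_jq_not_mem_range (AlgebraicClosure E)
  exact ⟨c, congrArg Subtype.val hc⟩

instance algebraic_LE (N : ℕ) [NeZero N] (E : Type*) [Field E] [Algebra ℚ E] :
    Algebra.IsAlgebraic E⟮jE N E⟯ (laurentBaseChange E (modularFunctionFieldFull N)) :=
  Algebra.IsAlgebraic.of_finite _ _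

end Modular

end

end Fermat.Agent.S30.E2.Degree
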