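import Mathlib
import Fermat.Agent.S30.ModDisc
import Fermat.Agent.S30.CSide.Degree
import Fermat.Agent.S30.Model.Main
import Fermat.Agent.S18.K1Defs
import Fermat.Agent.S30.E2.DegreeL

set_option autoImplicit false
set_option linter.dupNamespace false
set_option linter.style.haveILetI false
set_option linter.unusedSectionVars false

/-!
# S30 / E2.G (insurance twin): the Gauss valuation of `E(j)` is unramified in `LE N E`

`gaussUnram : Model.GaussUnram π j` for the level-`N` function field `LE N E ⊆ E((q))` over the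
fraction field `E` of a discrete valuation ring `O` containing a primitive `N`-th root of unity
and `1 / N`, in the literal (family) form of `Model/Main.lean`:
the family is `θ ^ i`, `θ = j(q^N)`, `i < [LE N E : E(j)]`, and its trace discriminant is the
value at `j` of the discriminant of the modular polynomial (`ModDisc.discrOf`), which is nonzero
modulo `π` (`ModDisc.exists_modular_poly_discr`).

The identification of the two discriminants is done through the `ψ(N)` coset embeddings of
`CSide.Degree` (which are pairwise distinct on `θ`), via the trace formula of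
`Model.EmbDiscVert`: no irreducibility statement and no base change of `AdjoinRoot` is needed.
-/

noncomputable section

open Polynomial

namespace Fermat.Agent.S30.E2.GaussAlt

open Fermat.Agent.S30.ModDisc Fermat.Agent.S30.Model

/-! ### Generic: the trace discriminant of `θ ^ i` through embeddings -/

section Generic

variable {A K L Ω X : Type*} [CommRing A] [Field K] [Field L] [Algebra K L]
  [FiniteDimensional K L] [Field Ω] [Fintype X]

/-- If `m ∈ A[X]` is monic of degree `[L : K]`, and `σ : X → (L →+* Ω)` is a family of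
`[L : K]` ring homomorphisms with a common restriction `φK` to `K`, whose values at `θ` are
pairwise distinct roots of `m` (via `φA : A →+* Ω`), then the trace discriminant of the family
`θ ^ i` is the discriminant of `m`: `φK (det (Tr (θ^i θ^j))) = φA (discrOf m)`. -/
theorem map_det_traceMatrix_pow [Nontrivial A] {m : A[X]} (hm : m.Monic)
    (hdeg : m.natDegree = Fintype.card X) (hcard : Fintype.card X = Module.finrank K L)
    (φA : A →+* Ω) (φK : K →+* Ω) (σ : X → L →+* Ω)
    (hσK : ∀ x, (σ x).comp (algebraMap K L) = φK) (θ : L)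
    (hroot : ∀ x, m.eval₂ φA (σ x θ) = 0) (hinj : Function.Injective fun x => σ x θ) :
    φK (Algebra.traceMatrix K (fun i : Fin (Module.finrank K L) => θ ^ (i : ℕ))).det
      = φA (discrOf hm) := by
  classical
  -- the `A`-side
  have hdim : (AdjoinRoot.powerBasis' hm).dim = Fintype.card X := by
    rw [AdjoinRoot.powerBasis'_dim, hdeg]
  have hcardA : Fintype.card (Fin (AdjoinRoot.powerBasis' hm).dim) = Fintype.card X := by
    rw [Fintype.card_fin, hdim]
  let e : Fin (AdjoinRoot.powerBasis' hm).dim ≃ X := Fintype.equivOfCardEq hcardA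
  let τ : Fin (AdjoinRoot.powerBasis' hm).dim → AdjoinRoot m →+* Ω :=
    fun i => AdjoinRoot.lift φA (σ (e i) θ) (hroot (e i))
  have hτ : ∀ i, (τ i).comp (algebraMap A (AdjoinRoot m)) = φA := fun i =>
    AdjoinRoot.lift_comp_of (hroot (e i))
  have hτinj : Function.Injective fun i => (RingHom.id Ω).comp (τ i) := by
    intro i i' h
    have h1 := congrArg (fun g : AdjoinRoot m →+* Ω => g (AdjoinRoot.root m)) h
    simp only [RingHom.comp_apply, τ, AdjoinRoot.lift_root, RingHom.id_apply] at h1
    exact e.injective (hinj h1)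
  have hA := EmbDiscVert.map_discr_eq (AdjoinRoot.powerBasis' hm).basis φA (RingHom.id Ω) τ hτ
    hτinj
  set M : Matrix (Fin (AdjoinRoot.powerBasis' hm).dim) (Fin (AdjoinRoot.powerBasis' hm).dim) Ω :=
    Matrix.of fun l i => σ (e l) θ ^ (i : ℕ) with hM
  have hMeq : (Matrix.of fun l i => τ l ((AdjoinRoot.powerBasis' hm).basis i)) = M := by
    ext l i
    rw [hM, Matrix.of_apply, Matrix.of_apply, PowerBasis.basis_eq_pow, map_pow,
      AdjoinRoot.powerBasis'_gen]
    simp only [τ, AdjoinRoot.lift_root]
  rw [hMeq] at hA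
  -- the `K`-side
  have hn : Module.finrank K L = (AdjoinRoot.powerBasis' hm).dim := by rw [hdim, hcard]
  let e' : Fin (Module.finrank K L) ≃ X := (finCongr hn).trans e
  let bK : Module.Basis X K L := (Module.finBasis K L).reindex e'
  have hσinj : Function.Injective fun x => (RingHom.id Ω).comp (σ x) := by
    intro x y h
    apply hinj
    have h1 := congrArg (fun g : L →+* Ω => g θ) h
    simpa using h1
  have htr : ∀ y : L, φK (Algebra.trace K L y) = ∑ x, σ x y := fun y =>
    EmbDiscVert.map_trace_eq_sum bK φK (RingHom.id Ω) σ hσK hσinj y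
  set M' : Matrix (Fin (Module.finrank K L)) (Fin (Module.finrank K L)) Ω :=
    Matrix.of fun l i => σ (e' l) θ ^ (i : ℕ) with hM'
  have hmat : (Algebra.traceMatrix K (fun i : Fin (Module.finrank K L) => θ ^ (i : ℕ))).map φK
      = M'.transpose * M' := by
    ext i j
    rw [Matrix.map_apply, Algebra.traceMatrix_apply, Algebra.traceForm_apply, htr,
      Matrix.mul_apply, ← Equiv.sum_comp e']
    refine Finset.sum_congr rfl fun l _ => ?_
    rw [Matrix.transpose_apply, hM', Matrix.of_apply, Matrix.of_apply, map_mul, map_pow, map_pow]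
  have hM'M : M' = M.submatrix (finCongr hn) (finCongr hn) := by
    ext l i
    rw [hM', hM, Matrix.submatrix_apply, Matrix.of_apply, Matrix.of_apply]
    rfl
  have hdet : M'.det = M.det := by
    rw [hM'M, Matrix.det_submatrix_equiv_self]
  rw [RingHom.map_det, RingHom.mapMatrix_apply, hmat, Matrix.det_mul, Matrix.det_transpose, hdet]
  exact hA.symm

end Generic

/-! ### The modular instance -/

section Modular

open ModularCurve UpperHalfPlane CongruenceSubgroup HahnSeries
open scoped MatrixGroups
open Fermat.Agent.S28 Fermat.Agent.S28.Defs Fermat.Agent.S30.CSide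
open Fermat.Agent.S24.HolH Fermat.Agent.S24.Theta Fermat.Agent.S18.K1Defs

variable (N : ℕ) [NeZero N] {O E : Type} [CommRing O] [Field E] [Algebra O E] [Algebra ℚ E]

/-- `θ = j(q^N)` as an element of the function field. -/
def thetaN : FL E N := ((genL E N N dvd_rfl : A0L E N) : FL E N)

theorem coe_thetaN :
    ((thetaN (E := E) N : FL E N) : LaurentSeries E)
      = coeffMap (algebraMap O E) (qE O N (jqModC O)) := by
  show coeffEmb E (qExpand ℚ N jq) = _
  have hq : qExpand ℚ N = qE ℚ N := by
    unfold qE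
    rw [dif_neg (NeZero.ne N)]
  rw [Formal.coeffMap_qE, coeffMap_jqModC, hq, ← jqModC_rat]
  show coeffMap (algebraMap ℚ E) (qE ℚ N (jqModC ℚ)) = _
  rw [Formal.coeffMap_qE, coeffMap_jqModC]

theorem coe_jL_eq :
    ((jL E N : FL E N) : LaurentSeries E) = coeffMap (algebraMap O E) (jqModC O) := by
  show coeffEmb E jq = _
  rw [coeffMap_jqModC, ← jqModC_rat]
  show coeffMap (algebraMap ℚ E) (jqModC ℚ) = _
  rw [coeffMap_jqModC]

variable [Algebra O (LE N E)] [IsScalarTower O E (LE N E)]

/-- The evaluation `O[X] → LE N E`, `X ↦ j`. -/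
def evJ : O[X] →+* FL E N := (aeval (R := O) (jL E N)).toRingHom

theorem evJ_C (a : O) : evJ (O := O) (E := E) N (C a) = algebraMap E (FL E N) (algebraMap O E a) := by
  show aeval (R := O) (jL E N) (C a) = _
  rw [aeval_C]
  exact IsScalarTower.algebraMap_apply O E (LE N E) a

theorem evJ_X : evJ (O := O) (E := E) N X = jL E N := by
  show aeval (R := O) (jL E N) X = _
  rw [aeval_X]

/-- In `E((q))`, `evJ` is "evaluate at `j(q)` over `O`, then change coefficients". -/
theorem val_comp_evJ :
    ((LE N E).val : FL E N →+* LaurentSeries E).comp (evJ (O := O) (E := E) N)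
      = (coeffMap (algebraMap O E)).comp
          (Polynomial.eval₂RingHom (HahnSeries.C : O →+* LaurentSeries O) (jqModC O)) := by
  refine Polynomial.ringHom_ext (fun a => ?_) ?_
  · rw [RingHom.comp_apply, evJ_C, RingHom.comp_apply, Polynomial.coe_eval₂RingHom,
      Polynomial.eval₂_C, Formal.coeffMap_C]
    show algebraMap E (LaurentSeries E) (algebraMap O E a) = _
    rw [HahnSeries.algebraMap_apply', ← HahnSeries.ofPowerSeries_C]
    rfl
  · rw [RingHom.comp_apply, evJ_X, RingHom.comp_apply, Polynomial.coe_eval₂RingHom,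
      Polynomial.eval₂_X]
    exact coe_jL_eq (O := O) N

/-- A relation `P(j(q), j(q^N)) = 0` over `O` holds in the function field. -/
theorem eval₂_evJ_thetaN {P : Polynomial (Polynomial O)}
    (h : P.eval₂ (Polynomial.eval₂RingHom (HahnSeries.C : O →+* LaurentSeries O) (jqModC O))
      (qE O N (jqModC O)) = 0) :
    P.eval₂ (evJ (O := O) (E := E) N) (thetaN N) = 0 := by
  apply Subtype.ext
  have h1 : ((P.eval₂ (evJ (O := O) (E := E) N) (thetaN N) : FL E N) : LaurentSeries E)
      = P.eval₂ (((LE N E).val : FL E N →+* LaurentSeries E).comp (evJ (O := O) (E := E) N))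
          ((thetaN (E := E) N : FL E N) : LaurentSeries E) :=
    Polynomial.hom_eval₂ P (evJ (O := O) (E := E) N)
      ((LE N E).val : FL E N →+* LaurentSeries E) (thetaN N)
  rw [h1, val_comp_evJ, coe_thetaN (O := O) N, ← Polynomial.hom_eval₂, h, map_zero]
  rfl

end Modular

/-! ### The main theorem -/

section Main

open ModularCurve UpperHalfPlane CongruenceSubgroup HahnSeries IntermediateField
open scoped MatrixGroups
open Fermat.Agent.S28 Fermat.Agent.S28.Defs Fermat.Agent.S30.CSide
open Fermat.Agent.S24.HolH Fermat.Agent.S24.Theta Fermat.Agent.S18.K1Defs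

variable (N : ℕ) [NeZero N] {O E : Type} [CommRing O] [IsDomain O] [IsDiscreteValuationRing O]
  [Field E] [CharZero E] [Algebra O E] [IsFractionRing O E] [Algebra ℚ E]

/-- The coset embeddings are pairwise distinct on `θ = j(q^N)`. -/
theorem cosetEmbL_thetaN_injective (ι : E →+* ℂ) :
    Function.Injective fun x : SL(2, ℤ) ⧸ Gamma0 N => cosetEmbL ι N x (thetaN N) := by
  intro x y hxy
  obtain ⟨g, rfl⟩ := QuotientGroup.mk_surjective x
  obtain ⟨h, rfl⟩ := QuotientGroup.mk_surjective y
  have hθ : ∀ γ ∈ Gamma0 N, ∀ a : A0L E N, compSL γ (thetaL ι N a) = thetaL ι N a :=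
    fun γ hγ a => compSL_thetaL_of_mem_Gamma0 hγ a
  have h1 : cosetHom (thetaL ι N) (g : SL(2, ℤ) ⧸ Gamma0 N) (genL E N N dvd_rfl)
      = cosetHom (thetaL ι N) (h : SL(2, ℤ) ⧸ Gamma0 N) (genL E N N dvd_rfl) := by
    have h2 : cosetEmbL ι N (g : SL(2, ℤ) ⧸ Gamma0 N) (thetaN N)
        = cosetEmbL ι N (h : SL(2, ℤ) ⧸ Gamma0 N) (thetaN N) := hxy
    unfold thetaN at h2
    rw [cosetEmbL_coe, cosetEmbL_coe] at h2
    exact IsFractionRing.injective HolH (FractionRing HolH) h2
  rw [cosetHom_mk _ hθ, cosetHom_mk _ hθ] at h1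
  have h3 : compSL (g⁻¹ * h) (thetaL ι N (genL E N N dvd_rfl))
      = thetaL ι N (genL E N N dvd_rfl) := by
    rw [compSL_mul, h1, ← compSL_mul, inv_mul_cancel, compSL_one]
  exact QuotientGroup.eq.mpr (mem_Gamma0_of_compSL_thetaL_genL ι N _ h3)

variable [Algebra O (LE N E)] [IsScalarTower O E (LE N E)]

/-- `j` is transcendental over `O`: the evaluation `O[X] → LE N E` is injective. -/
theorem evJ_injective (ι : E →+* ℂ) : Function.Injective (evJ (O := O) (E := E) N) := by
  rw [injective_iff_map_eq_zero]
  intro p hp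
  have htr : Transcendental E (jL E N) := Fermat.Agent.S30.E2Deg.transcendental_jL_of_emb ι N
  have h1 : aeval (R := E) (jL E N) (p.map (algebraMap O E)) = 0 := by
    rw [Polynomial.aeval_map_algebraMap]
    exact hp
  have h2 : p.map (algebraMap O E) = 0 := by
    by_contra hne
    exact htr ⟨_, hne, h1⟩
  exact (Polynomial.map_eq_zero_iff (IsFractionRing.injective O E)).mp h2

/-- **E2.G**: the Gauss valuation of `E(j)` attached to `π` is unramified in the level-`N`
function field `LE N E`, when `O` contains a primitive `N`-th root of unity and `1 / N`. -/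
theorem gaussUnram (ι : E →+* ℂ) {ζ₀ : O} (hζ₀ : IsPrimitiveRoot ζ₀ N) (hN : IsUnit (N : O))
    (π : O) (hπ : Irreducible π) :
    GaussUnram (E := E) π (jL E N) := by
  classical
  haveI : Finite (SL(2, ℤ) ⧸ Gamma0 N) :=
    Fermat.Agent.S24.GenusNat.finite_quotient N (NeZero.ne N)
  letI : Fintype (SL(2, ℤ) ⧸ Gamma0 N) := Fintype.ofFinite _
  haveI : Module.Finite E⟮jL E N⟯ (FL E N) := finite_jL ι N
  have hιO : Function.Injective (ι.comp (algebraMap O E)) :=
    ι.injective.comp (IsFractionRing.injective O E)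
  obtain ⟨P, hP, hdeg, hroot, -, hdisc⟩ :=
    exists_modular_poly_discr.{0} N (ι.comp (algebraMap O E)) hιO hζ₀ hN
  have hrel : P.eval₂ (evJ (O := O) (E := E) N) (thetaN N) = 0 := eval₂_evJ_thetaN N hroot
  -- the embeddings
  let x₀ : SL(2, ℤ) ⧸ Gamma0 N := ((1 : SL(2, ℤ)) : SL(2, ℤ) ⧸ Gamma0 N)
  let σ : SL(2, ℤ) ⧸ Gamma0 N → FL E N →+* FractionRing HolH := cosetEmbL ι N
  let φK : E⟮jL E N⟯ →+* FractionRing HolH := (σ x₀).comp (algebraMap E⟮jL E N⟯ (FL E N))
  let φA : O[X] →+* FractionRing HolH := (σ x₀).comp (evJ (O := O) (E := E) N)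
  have hσK : ∀ x, (σ x).comp (algebraMap E⟮jL E N⟯ (FL E N)) = φK := fun x =>
    RingHom.ext fun l => Fermat.Agent.S24.DegreeAbs.agree_on_adjoin_simple (jL E N) (σ x) (σ x₀)
      (cosetEmbL_algebraMap ι N x x₀) (cosetEmbL_jL ι N x x₀) l
  have hσA : ∀ x, (σ x).comp (evJ (O := O) (E := E) N) = φA := by
    intro x
    refine Polynomial.ringHom_ext (fun a => ?_) ?_
    · simp only [RingHom.comp_apply, φA, evJ_C]
      exact cosetEmbL_algebraMap ι N x x₀ _
    · simp only [RingHom.comp_apply, φA, evJ_X]
      exact cosetEmbL_jL ι N x x₀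
  have hrootσ : ∀ x, P.eval₂ φA (σ x (thetaN N)) = 0 := by
    intro x
    rw [← hσA x, ← Polynomial.hom_eval₂, hrel, map_zero]
  have hcard : Fintype.card (SL(2, ℤ) ⧸ Gamma0 N) = Module.finrank E⟮jL E N⟯ (FL E N) := by
    rw [finrank_jL ι N, ← Fermat.Agent.S24.Comb.card_quotient_Gamma0 N, Nat.card_eq_fintype_card]
  have hdeg' : P.natDegree = Fintype.card (SL(2, ℤ) ⧸ Gamma0 N) := by
    rw [hdeg, Subgroup.index, Nat.card_eq_fintype_card]
  have hkey := map_det_traceMatrix_pow hP hdeg' hcard φA φK σ hσK (thetaN N) hrootσ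
    (cosetEmbL_thetaN_injective N ι)
  -- integrality of `θ`
  have hθint : IsIntegral (Algebra.adjoin O {jL E N}) (thetaN (E := E) N) := by
    let jD : Algebra.adjoin O {jL E N} := ⟨jL E N, Algebra.self_mem_adjoin_singleton O _⟩
    let ψD : O[X] →+* Algebra.adjoin O {jL E N} := (aeval (R := O) jD).toRingHom
    refine ⟨P.map ψD, hP.map ψD, ?_⟩
    rw [Polynomial.eval₂_map]
    have h1 : (algebraMap (Algebra.adjoin O {jL E N}) (FL E N)).comp ψD
        = evJ (O := O) (E := E) N := by
      refine Polynomial.ringHom_ext (fun a => ?_) ?_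
      · show algebraMap (Algebra.adjoin O {jL E N}) (FL E N) (aeval (R := O) jD (C a))
          = aeval (R := O) (jL E N) (C a)
        rw [aeval_C, aeval_C, ← IsScalarTower.algebraMap_apply]
      · show algebraMap (Algebra.adjoin O {jL E N}) (FL E N) (aeval (R := O) jD X)
          = aeval (R := O) (jL E N) X
        rw [aeval_X, aeval_X]
        rfl
    rw [h1]
    exact hrel
  refine ⟨fun i => thetaN N ^ (i : ℕ), fun i => hθint.pow _,
    evJ (O := O) (E := E) N (discrOf hP), ?_, ?_, ?_⟩
  · rw [Algebra.adjoin_singleton_eq_range_aeval]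
    exact ⟨discrOf hP, rfl⟩
  · exact (σ x₀).injective hkey
  · intro c hc heq
    rw [Algebra.adjoin_singleton_eq_range_aeval] at hc
    obtain ⟨Q, rfl⟩ := hc
    have h1 : evJ (O := O) (E := E) N (discrOf hP) = evJ (O := O) (E := E) N (C π * Q) := by
      rw [heq, map_mul]
      congr 1
      show algebraMap O (FL E N) π = aeval (R := O) (jL E N) (C π)
      rw [aeval_C]
    have h2 : discrOf hP = C π * Q := evJ_injective N ι h1
    have h3 : IsLocalRing.residue O π = 0 := by
      rw [IsLocalRing.residue_eq_zero_iff]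
      exact hπ.not_isUnit
    apply hdisc (IsLocalRing.ResidueField O) (IsLocalRing.residue O)
    rw [h2, Polynomial.map_mul, Polynomial.map_C, h3, map_zero, zero_mul]

end Main

end Fermat.Agent.S30.E2.GaussAlt

end
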