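import Mathlib

/-!
# Rational base change of a generator: degree formula

If `A(u) = j * B(u)` with `A` monic, `deg B < deg A`, `A`, `B` coprime over `E` and `j`
transcendental over `E`, then `A(Y) - j B(Y)` is irreducible over `E(j)` and
`[L : E(j)] = deg A * [L : E(u)]`.
-/


set_option autoImplicit false

noncomputable section

namespace Fermat.Agent.S30.E2.HauptGen

open Polynomial IntermediateField Module
open scoped IntermediateField.algebraAdjoinAdjoin

section Irred

variable {E L : Type*} [Field E] [Field L] [Algebra E L]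

/-- The polynomial `A(Y) - t·B(Y)` over a ring `R` receiving `E`. -/
def relPoly (R : Type*) [CommRing R] [Algebra E R] (t : R) (A B : E[X]) : R[X] :=
  A.map (algebraMap E R) - C t * B.map (algebraMap E R)

theorem relPoly_map {R R' : Type*} [CommRing R] [Algebra E R] [CommRing R'] [Algebra E R']
    [Algebra R R'] [IsScalarTower E R R'] (t : R) (A B : E[X]) :
    (relPoly R t A B).map (algebraMap R R') = relPoly R' (algebraMap R R' t) A B := by
  simp [relPoly, Polynomial.map_map, ← IsScalarTower.algebraMap_eq]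

theorem natDegree_relPoly {R : Type*} [CommRing R] [Nontrivial R] [Algebra E R] (t : R)
    {A B : E[X]} (hA : A.Monic) (hdeg : B.natDegree < A.natDegree) :
    (relPoly R t A B).natDegree = A.natDegree ∧ (relPoly R t A B).Monic := by
  have h1 : (A.map (algebraMap E R)).Monic := hA.map _
  have h2 : (A.map (algebraMap E R)).natDegree = A.natDegree := hA.natDegree_map _
  have h4 : (C t * B.map (algebraMap E R)).natDegree < (A.map (algebraMap E R)).natDegree := by
    rw [h2]
    exact lt_of_le_of_lt (natDegree_C_mul_le _ _) (lt_of_le_of_lt natDegree_map_le hdeg)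
  constructor
  · rw [relPoly, natDegree_sub_eq_left_of_natDegree_lt h4, h2]
  · exact h1.sub_of_left (degree_lt_degree h4)

/-- `A(Y) - j·B(Y)` is irreducible over `E[j]` when `j` is transcendental and `A`, `B` are
coprime. -/
theorem irreducible_relPoly_adjoin {j : L} (hj : Transcendental E j) {A B : E[X]} (hB : B ≠ 0)
    (hcop : IsCoprime A B) :
    Irreducible (relPoly (Algebra.adjoin E {j}) ⟨j, Algebra.self_mem_adjoin_singleton E j⟩ A B) := by
  let e := Polynomial.algEquivOfTranscendental E j hj
  let φ : E[X][X] := A.map (algebraMap E E[X]) - Polynomial.C Polynomial.X *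
    B.map (algebraMap E E[X])
  have φ_map : φ.mapEquiv e.toRingEquiv =
      relPoly (Algebra.adjoin E {j}) ⟨j, Algebra.self_mem_adjoin_singleton E j⟩ A B := by
    simp only [relPoly, algebraMap_eq, map_sub, mapEquiv_apply,
      AlgEquiv.toRingEquiv_toRingHom, algEquivOfTranscendental_coe, Polynomial.map_map, map_mul,
      map_C, RingHom.coe_coe, aeval_X, e, φ]
    congr 2 <;> ext <;> simp
  rw [← φ_map, MulEquiv.irreducible_iff]
  have : φ = Bivariate.swap (Polynomial.C A - Polynomial.X * Polynomial.C B) := by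
    rw [map_sub, map_mul, Bivariate.swap_C, Bivariate.swap_C, Bivariate.swap_Y]
    rfl
  rw [this, MulEquiv.irreducible_iff]
  convert irreducible_C_mul_X_add_C (neg_ne_zero.mpr hB)
      ((IsCoprime.neg_right_iff _ _).mpr hcop).symm.isRelPrime using 1
  rw [add_comm, X_mul_C, map_neg, neg_mul]
  exact sub_eq_add_neg (Polynomial.C A) (Polynomial.C B * Polynomial.X)


theorem ne_zero_of_isCoprime {A B : E[X]} (hdeg : B.natDegree < A.natDegree)
    (hcop : IsCoprime A B) : B ≠ 0 := by
  rintro rfl
  have hu : IsUnit A := isCoprime_zero_right.mp hcop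
  have h0 := natDegree_eq_zero_of_isUnit hu
  omega

/-- `A(Y) - j·B(Y)` is irreducible over `E(j)`. -/
theorem irreducible_relPoly {j : L} (hj : Transcendental E j) {A B : E[X]} (hA : A.Monic)
    (hdeg : B.natDegree < A.natDegree) (hcop : IsCoprime A B) :
    Irreducible (relPoly E⟮j⟯ (AdjoinSimple.gen E j) A B) := by
  have hB : B ≠ 0 := ne_zero_of_isCoprime hdeg hcop
  have hUFD : UniqueFactorizationMonoid (Algebra.adjoin E {j}) :=
    hj.uniqueFactorizationMonoid_adjoin
  have hirr := irreducible_relPoly_adjoin hj hB hcop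
  have hmap : (relPoly (Algebra.adjoin E {j}) ⟨j, Algebra.self_mem_adjoin_singleton E j⟩ A B).map
      (algebraMap (Algebra.adjoin E {j}) E⟮j⟯) = relPoly E⟮j⟯ (AdjoinSimple.gen E j) A B := by
    rw [relPoly_map]
    rfl
  rw [← hmap, ← IsPrimitive.irreducible_iff_irreducible_map_fraction_map]
  · exact hirr
  · refine hirr.isPrimitive ?_
    rw [(natDegree_relPoly _ hA hdeg).1]
    omega

theorem aeval_relPoly {j u : L} {A B : E[X]} (hrel : aeval u A = j * aeval u B) :
    aeval u (relPoly E⟮j⟯ (AdjoinSimple.gen E j) A B) = 0 := by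
  rw [relPoly, map_sub, map_mul, aeval_map_algebraMap, aeval_map_algebraMap, aeval_C, hrel]
  exact sub_self _

theorem aeval_ne_zero_of_rel {j u : L} {A B : E[X]} (hcop : IsCoprime A B)
    (hrel : aeval u A = j * aeval u B) : aeval u B ≠ 0 := by
  intro h0
  obtain ⟨a, b, hab⟩ := hcop
  have h1 := congrArg (aeval u) hab
  rw [map_add, map_mul, map_mul, hrel, h0, mul_zero, mul_zero, mul_zero, add_zero, map_one] at h1
  exact zero_ne_one h1

theorem mem_adjoin_of_rel {j u : L} {A B : E[X]} (hcop : IsCoprime A B)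
    (hrel : aeval u A = j * aeval u B) : j ∈ E⟮u⟯ := by
  have hB := aeval_ne_zero_of_rel hcop hrel
  have hmem : ∀ g : E[X], aeval u g ∈ E⟮u⟯ := fun g =>
    IntermediateField.algebra_adjoin_le_adjoin E {u} (aeval_mem_adjoin_singleton E u)
  have hj : j = aeval u A / aeval u B := by
    rw [hrel, mul_div_cancel_right₀ _ hB]
  rw [hj]
  exact div_mem (hmem A) (hmem B)

/-- The degree formula `[L : E(j)] = deg A · [L : E(u)]`. -/
theorem finrank_eq_mul {j : L} (hj : Transcendental E j) {A B : E[X]} (hA : A.Monic)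
    (hdeg : B.natDegree < A.natDegree) (hcop : IsCoprime A B) (u : L)
    (hrel : aeval u A = j * aeval u B) :
    Module.finrank E⟮j⟯ L = A.natDegree * Module.finrank E⟮u⟯ L := by
  have hirr := irreducible_relPoly hj hA hdeg hcop
  have hmonic := (natDegree_relPoly (AdjoinSimple.gen E j) hA hdeg).2
  have hnat := (natDegree_relPoly (AdjoinSimple.gen E j) hA hdeg).1
  have haeval := aeval_relPoly (E := E) hrel
  have hint : IsIntegral E⟮j⟯ u := ⟨_, hmonic, haeval⟩
  have hmin : relPoly E⟮j⟯ (AdjoinSimple.gen E j) A B = minpoly E⟮j⟯ u :=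
    minpoly.eq_of_irreducible_of_monic hirr haeval hmonic
  have h1 : Module.finrank E⟮j⟯ E⟮j⟯⟮u⟯ = A.natDegree := by
    rw [IntermediateField.adjoin.finrank hint, ← hmin, hnat]
  have h2 := Module.finrank_mul_finrank E⟮j⟯ E⟮j⟯⟮u⟯ L
  have h3 : (E⟮j⟯⟮u⟯).restrictScalars E = E⟮u⟯ := by
    rw [IntermediateField.restrictScalars_adjoin]
    apply le_antisymm
    · rw [IntermediateField.adjoin_le_iff]
      rintro x (hx | hx)
      · have hle : E⟮j⟯ ≤ E⟮u⟯ := by
          rw [IntermediateField.adjoin_simple_le_iff]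
          exact mem_adjoin_of_rel hcop hrel
        exact hle hx
      · rw [Set.mem_singleton_iff] at hx
        rw [hx]
        exact IntermediateField.mem_adjoin_simple_self E u
    · exact IntermediateField.adjoin.mono E _ _ Set.subset_union_right
  have h4 : Module.finrank E⟮j⟯⟮u⟯ L = Module.finrank E⟮u⟯ L := by
    show Module.finrank ((E⟮j⟯⟮u⟯).restrictScalars E) L = _
    rw [h3]
  rw [← h2, h1, h4]

end Irred

end Fermat.Agent.S30.E2.HauptGen
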