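/-
S30 / E2.H, generic half (helper70).

`unramAt_of_embeddings`: a finite extension `L / E(u)` of degree `n` with `n` pairwise distinct
embeddings into `F((X))` which agree on `E(u)`, send constants to constants and `u` to a power
series `J = c + (unit) · X + ⋯`, is unramified (in the elementwise trace discriminant form of
`Model.UnramAt`) at the closed point of the `u`-line cut out by an irreducible `f ∈ E[X]` having
`c` as a root.
-/
import Mathlib
import Fermat.Agent.S30.Model.EmbDisc

set_option autoImplicit false

noncomputable section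

namespace Fermat.Agent.S30.E2.HorizGen

open Polynomial IntermediateField Module
open scoped IntermediateField.algebraAdjoinAdjoin nonZeroDivisors

/-! ### Polynomials evaluated at a power series -/

section Series

variable {F : Type*} [Field F]

theorem constantCoeff_aeval (J : PowerSeries F) (h : F[X]) :
    PowerSeries.constantCoeff (aeval J h) = h.eval (PowerSeries.constantCoeff J) := by
  rw [aeval_def, hom_eval₂]
  have hcomp : (PowerSeries.constantCoeff (R := F)).comp (algebraMap F (PowerSeries F)) =
      RingHom.id F := by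
    ext a
    simp
  rw [hcomp, eval₂_id]

theorem coeff_one_aeval (J : PowerSeries F) (h : F[X]) :
    PowerSeries.coeff 1 (aeval J h) =
      (derivative h).eval (PowerSeries.constantCoeff J) * PowerSeries.coeff 1 J := by
  have h1 := Derivation.map_aeval (PowerSeries.derivative F) h J
  have h2 : PowerSeries.coeff 0 (PowerSeries.derivative F (aeval J h)) =
      PowerSeries.coeff 1 (aeval J h) := by
    rw [PowerSeries.coeff_derivative]
    simp
  have h3 : PowerSeries.constantCoeff (PowerSeries.derivative F J) = PowerSeries.coeff 1 J := by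
    rw [← PowerSeries.coeff_zero_eq_constantCoeff_apply, PowerSeries.coeff_derivative]
    simp
  rw [← h2, h1, smul_eq_mul, PowerSeries.coeff_zero_eq_constantCoeff_apply, map_mul,
    constantCoeff_aeval, h3]

/-- A ring homomorphism into Laurent series with values in power series factors through power
series. -/
theorem exists_powerSeries_restrict {A : Type*} [CommRing A]
    (ψ : A →+* LaurentSeries F)
    (h : ∀ a, ∃ y : PowerSeries F, HahnSeries.ofPowerSeries ℤ F y = ψ a) :
    ∃ φ : A →+* PowerSeries F, ∀ a, HahnSeries.ofPowerSeries ℤ F (φ a) = ψ a := by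
  classical
  have hinj : Function.Injective (HahnSeries.ofPowerSeries ℤ F) :=
    HahnSeries.ofPowerSeries_injective
  choose f hf using h
  exact ⟨{ toFun := f
           map_one' := hinj (by rw [hf, map_one, map_one])
           map_mul' := fun x y => hinj (by rw [hf, map_mul, map_mul, hf, hf])
           map_zero' := hinj (by rw [hf, map_zero, map_zero])
           map_add' := fun x y => hinj (by rw [hf, map_add, map_add, hf, hf]) }, hf⟩

/-- An element of order one whose multiples are exactly the elements with vanishing constant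
term is prime. -/
theorem prime_of_order_one {R : Type*} [CommRing R] (P : R) (φ : R →+* PowerSeries F)
    (hord : (φ P).order = 1)
    (hker : ∀ r : R, PowerSeries.constantCoeff (φ r) = 0 → P ∣ r) : Prime P := by
  have h0 : PowerSeries.constantCoeff (φ P) = 0 := by
    have h1 : (φ P).order = ((1 : ℕ) : ℕ∞) := by rw [hord]; rfl
    have h2 := (PowerSeries.order_eq_nat.mp h1).2 0 Nat.zero_lt_one
    simpa using h2
  refine ⟨?_, ?_, ?_⟩
  · intro h
    rw [h, map_zero, PowerSeries.order_zero] at hord
    exact absurd hord (by decide)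
  · intro hunit
    have h1 := PowerSeries.order_zero_of_unit (hunit.map φ)
    rw [hord] at h1
    exact one_ne_zero h1
  · intro a b hab
    obtain ⟨k, hk⟩ := hab
    have h1 : PowerSeries.constantCoeff (φ a) * PowerSeries.constantCoeff (φ b) = 0 := by
      rw [← map_mul, ← map_mul, hk, map_mul, map_mul, h0, zero_mul]
    rcases mul_eq_zero.mp h1 with h | h
    · exact Or.inl (hker a h)
    · exact Or.inr (hker b h)

end Series

/-! ### The abstract statement -/

section Abstract

variable {R K L F : Type*} [CommRing R] [IsDomain R] [IsPrincipalIdealRing R]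
  [Field K] [Field L] [Algebra R K] [IsFractionRing R K] [Algebra K L] [Algebra R L]
  [IsScalarTower R K L] [FiniteDimensional K L] [CharZero K] [Field F] [CharZero F]

/-- **Abstract form.** `R` a principal ideal domain with fraction field `K`, `L / K` finite of
degree `n`; `φ : R → F⟦X⟧` makes `P` a uniformiser, and `L` has `n` pairwise distinct embeddings
into `F((X))` extending `φ`. Then there are `n` elements of `L`, integral over `R`, whose trace
discriminant is not divisible by `P`. -/
theorem exists_family_of_embeddings (P : R) (φ : R →+* PowerSeries F)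
    (hord : (φ P).order = 1)
    (hker : ∀ r : R, PowerSeries.constantCoeff (φ r) = 0 → P ∣ r)
    {ι : Type*} [Finite ι] (hcard : Nat.card ι = Module.finrank K L)
    (σ : ι → L →+* LaurentSeries F) (hσ : Function.Injective σ)
    (hσφ : ∀ i r, σ i (algebraMap R L r) = HahnSeries.ofPowerSeries ℤ F (φ r)) :
    ∃ b : Fin (Module.finrank K L) → L, (∀ i, IsIntegral R (b i)) ∧
      ∃ d : R, algebraMap R K d = (Algebra.traceMatrix K b).det ∧ ¬ P ∣ d := by
  classical
  have hPprime : Prime P := prime_of_order_one P φ hord hker
  have eqv : Fin (Module.finrank K L) ≃ ι := (Finite.equivFinOfCardEq hcard).symm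
  have hsep : Algebra.IsSeparable K L := inferInstance
  have htf : IsTorsionFree R L := .trans_faithfulSMul R K L
  have hfin : Module.Finite R (integralClosure R L) := IsIntegralClosure.finite R K L _
  have hfree : Module.Free R (integralClosure R L) := IsIntegralClosure.module_free R K L _
  have hrank : Module.finrank R (integralClosure R L) = Module.finrank K L :=
    IsIntegralClosure.rank R K L _
  have hloc : IsLocalization (Algebra.algebraMapSubmonoid (integralClosure R L) R⁰) L :=
    IsIntegralClosure.isLocalization R K L _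
  have hic : IsIntegrallyClosed (integralClosure R L) :=
    integralClosure.isIntegrallyClosedOfFiniteExtension K
  let b : Basis (Fin (Module.finrank K L)) R (integralClosure R L) :=
    Module.finBasisOfFinrankEq _ _ hrank
  -- the embeddings of the integral closure
  have hlift : ∀ k : Fin (Module.finrank K L),
      ∃ τ : integralClosure R L →+* PowerSeries F,
        (∀ x, HahnSeries.ofPowerSeries ℤ F (τ x) = σ (eqv k) (x : L)) ∧
          τ.comp (algebraMap R (integralClosure R L)) = φ :=
    fun k => Fermat.Agent.S30.Model.EmbDisc.exists_powerSeries_lift φ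
      ((σ (eqv k)).comp (algebraMap (integralClosure R L) L))
      (fun r => hσφ (eqv k) r)
  choose τ hτ hτφ using hlift
  have hτinj : Function.Injective τ := by
    intro k k' h
    apply eqv.injective
    apply hσ
    apply IsLocalization.ringHom_ext (Algebra.algebraMapSubmonoid (integralClosure R L) R⁰)
    refine RingHom.ext fun x => ?_
    simp only [RingHom.comp_apply]
    show σ (eqv k) (x : L) = σ (eqv k') (x : L)
    rw [← hτ k x, ← hτ k' x, h]
  have hndvd : ¬ P ∣ Algebra.discr R b :=
    Fermat.Agent.S30.Model.EmbDisc.not_dvd_discr b P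
      (Fermat.Agent.S30.Model.EmbDisc.height_one_of_ufd P hPprime) φ hord hker τ hτφ hτinj
  -- conclusion
  refine ⟨fun i => ((b i : integralClosure R L) : L), fun i => (b i).2, Algebra.discr R b, ?_,
    hndvd⟩
  have h1 := Algebra.discr_localizationLocalization R R⁰ (Rₘ := K) L b
  have h2 : (⇑(b.localizationLocalization K R⁰ L) : _ → L) =
      fun i => ((b i : integralClosure R L) : L) := by
    funext i
    rw [Basis.localizationLocalization_apply]
    rfl
  rw [Algebra.discr_def, h2] at h1
  exact h1.symm

end Abstract

/-! ### The ring `E[u]` -/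

section Adjoin

variable {E L : Type*} [Field E] [Field L] [Algebra E L]

theorem exists_eq_aeval (u : L) (r : Algebra.adjoin E {u}) :
    ∃ g : E[X], (r : L) = aeval u g := by
  have h : (r : L) ∈ (aeval u : E[X] →ₐ[E] L).range := by
    rw [← Algebra.adjoin_singleton_eq_range_aeval]
    exact r.2
  obtain ⟨g, hg⟩ := h
  exact ⟨g, hg.symm⟩

theorem aeval_mem (u : L) (g : E[X]) : aeval u g ∈ Algebra.adjoin E {u} := by
  rw [Algebra.adjoin_singleton_eq_range_aeval]
  exact ⟨g, rfl⟩

theorem isPrincipalIdealRing_adjoin (u : L) : IsPrincipalIdealRing (Algebra.adjoin E {u}) := by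
  let g : E[X] →+* Algebra.adjoin E {u} :=
    ((aeval u : E[X] →ₐ[E] L).codRestrict (Algebra.adjoin E {u}) (aeval_mem u)).toRingHom
  refine IsPrincipalIdealRing.of_surjective g ?_
  intro r
  obtain ⟨p, hp⟩ := exists_eq_aeval u r
  exact ⟨p, Subtype.ext hp.symm⟩

end Adjoin

/-! ### The generic theorem -/

section Generic

variable {E L F : Type*} [Field E] [Field L] [Algebra E L] [Field F] [CharZero F]

omit [CharZero F] in
/-- Values of an embedding on polynomials in `u`. -/
theorem map_aeval_eq (e : E →+* F) (J : PowerSeries F) (σ : L →+* LaurentSeries F) (u : L)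
    (hσE : ∀ a, σ (algebraMap E L a) = HahnSeries.C (e a))
    (hσu : σ u = HahnSeries.ofPowerSeries ℤ F J) (g : E[X]) :
    σ (aeval u g) = HahnSeries.ofPowerSeries ℤ F (aeval J (g.map e)) := by
  rw [aeval_def, hom_eval₂, aeval_def, eval₂_map, hom_eval₂, hσu]
  congr 1
  ext a : 1
  simp only [RingHom.comp_apply]
  rw [hσE]
  exact (HahnSeries.ofPowerSeries_C (e a)).symm

/-- **Generic horizontal unramifiedness from expansions.** The conclusion is the literal body of
`Model.UnramAt E⟮u⟯ (Algebra.adjoin E {u}) (aeval u f)`. -/
theorem unramAt_of_embeddings (u : L) [FiniteDimensional E⟮u⟯ L]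
    (e : E →+* F) (J : PowerSeries F) (hJ1 : PowerSeries.coeff 1 J ≠ 0)
    {ι : Type*} [Finite ι] (hcard : Nat.card ι = Module.finrank E⟮u⟯ L)
    (σ : ι → L →+* LaurentSeries F) (hσ : Function.Injective σ)
    (hσE : ∀ i a, σ i (algebraMap E L a) = HahnSeries.C (e a))
    (hσu : ∀ i, σ i u = HahnSeries.ofPowerSeries ℤ F J)
    (f : E[X]) (hf : Irreducible f)
    (hroot : (f.map e).eval (PowerSeries.constantCoeff J) = 0) :
    ∃ b : Fin (Module.finrank E⟮u⟯ L) → L,
      (∀ i, IsIntegral (Algebra.adjoin E {u}) (b i)) ∧
      ∃ d : L, d ∈ Algebra.adjoin E {u} ∧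
        ((Algebra.traceMatrix E⟮u⟯ b).det : L) = d ∧
        ∀ c : L, c ∈ Algebra.adjoin E {u} → d ≠ aeval u f * c := by
  classical
  have : CharZero E := (RingHom.charZero_iff e.injective).mpr inferInstance
  have : CharZero E⟮u⟯ := charZero_of_injective_algebraMap (algebraMap E E⟮u⟯).injective
  have : IsPrincipalIdealRing (Algebra.adjoin E {u}) := isPrincipalIdealRing_adjoin u
  have eqv : Fin (Module.finrank E⟮u⟯ L) ≃ ι := (Finite.equivFinOfCardEq hcard).symm
  have hpos : 0 < Module.finrank E⟮u⟯ L := Module.finrank_pos
  let i0 : ι := eqv ⟨0, hpos⟩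
  -- the base map
  obtain ⟨φ, hφ⟩ := exists_powerSeries_restrict
    ((σ i0).comp (algebraMap (Algebra.adjoin E {u}) L))
    (fun r => by
      obtain ⟨g, hg⟩ := exists_eq_aeval u r
      refine ⟨aeval J (g.map e), ?_⟩
      rw [RingHom.comp_apply]
      show _ = σ i0 (r : L)
      rw [hg, map_aeval_eq e J (σ i0) u (hσE i0) (hσu i0)])
  have hφg : ∀ (r : Algebra.adjoin E {u}) (g : E[X]), (r : L) = aeval u g →
      φ r = aeval J (g.map e) := by
    intro r g hg
    apply HahnSeries.ofPowerSeries_injective (Γ := ℤ)
    rw [hφ r, RingHom.comp_apply]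
    show σ i0 (r : L) = _
    rw [hg, map_aeval_eq e J (σ i0) u (hσE i0) (hσu i0)]
  have hφσ : ∀ (i : ι) (r : Algebra.adjoin E {u}),
      σ i (algebraMap (Algebra.adjoin E {u}) L r) = HahnSeries.ofPowerSeries ℤ F (φ r) := by
    intro i r
    obtain ⟨g, hg⟩ := exists_eq_aeval u r
    show σ i (r : L) = _
    rw [hφg r g hg, hg, map_aeval_eq e J (σ i) u (hσE i) (hσu i)]
  -- the prime element
  let P : Algebra.adjoin E {u} := ⟨aeval u f, aeval_mem u f⟩
  have hφP : φ P = aeval J (f.map e) := hφg P f rfl
  have hsep : (f.map e).Separable := hf.separable.map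
  have hord : (φ P).order = 1 := by
    have h0 : PowerSeries.constantCoeff (aeval J (f.map e)) = 0 := by
      rw [constantCoeff_aeval, hroot]
    have h1 : PowerSeries.coeff 1 (aeval J (f.map e)) ≠ 0 := by
      rw [coeff_one_aeval]
      refine mul_ne_zero ?_ hJ1
      have := hsep.aeval_derivative_ne_zero (x := PowerSeries.constantCoeff J)
        (by rw [aeval_def, eval₂_eq_eval_map]; simpa using hroot)
      simpa [aeval_def, eval₂_eq_eval_map] using this
    have h2 : (φ P).order = ((1 : ℕ) : ℕ∞) := by
      rw [PowerSeries.order_eq_nat, hφP]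
      refine ⟨h1, fun i hi => ?_⟩
      have hi0 : i = 0 := by omega
      subst hi0
      simpa using h0
    rw [h2]
    rfl
  have hker : ∀ r : Algebra.adjoin E {u}, PowerSeries.constantCoeff (φ r) = 0 → P ∣ r := by
    intro r hr
    obtain ⟨g, hg⟩ := exists_eq_aeval u r
    rw [hφg r g hg, constantCoeff_aeval] at hr
    rcases hf.isCoprime_or_dvd g with hcop | hdvd
    · exfalso
      obtain ⟨a, b, hab⟩ := hcop
      have h1 := congrArg (fun p : E[X] => (p.map e).eval (PowerSeries.constantCoeff J)) hab
      simp only [Polynomial.map_add, Polynomial.map_mul, eval_add, eval_mul, hroot, hr,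
        mul_zero, add_zero, Polynomial.map_one, eval_one] at h1
      exact zero_ne_one h1
    · obtain ⟨k, hk⟩ := hdvd
      refine ⟨⟨aeval u k, aeval_mem u k⟩, Subtype.ext ?_⟩
      show (r : L) = aeval u f * aeval u k
      rw [hg, hk, map_mul]
  obtain ⟨b, hb, d, hd, hPd⟩ := exists_family_of_embeddings (K := E⟮u⟯) P φ hord hker hcard σ hσ hφσ
  refine ⟨b, hb, (d : L), d.2, ?_, ?_⟩
  · rw [← hd]
    rfl
  · intro c hc hdc
    apply hPd
    exact ⟨⟨c, hc⟩, Subtype.ext hdc⟩

end Generic

end Fermat.Agent.S30.E2.HorizGen
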