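/-
S30 / chain [A], integration (helper80): `K1Modular N A p` for EVERY residue characteristic
`ℓ ∤ N` and every prime `p ≠ ℓ`, assembled from the landed pieces:

* `JInputsAll.jInputsC_OE` : the `u = j` inputs at every level prime to `ℓ` (E2.Deg/G/H/LP);
* `S18.K1Main.k1Modular_of_jInputs` : base `j` (`ℓ > 3`);
* `Haupt.K1.k1Modular_of_jInputs_two/_three` : Hauptmodul bases at levels divisible by `2`/`3`;
* `S18.K1Aux.k1Modular_of_cases` : case split and level descent.

The only non-standard axiom in the closure of `k1Modular` is the `sorry` of `Model.main_a` /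
`Model.main_b` in `S30/Model/Main.lean` cited by `S18/K1Main/Generic.lean`.
-/
import Mathlib
import Fermat.Agent.S30.E2.JInputsAll
import Fermat.Agent.S30.Haupt.K1
import Fermat.Agent.S18.K1Aux

set_option autoImplicit false
set_option synthInstance.maxHeartbeats 400000
set_option linter.style.haveILetI false

noncomputable section

open Polynomial IntermediateField ModularCurve

namespace Fermat.Agent.S30.E2.K1All

open Fermat.Agent.S18.K1Defs Fermat.Agent.S18.K1Main Fermat.Agent.S30

local notation "Qb" => AlgebraicClosure ℚ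

/-- **The `u = j` inputs exist at every level `M` prime to the residue characteristic** (all
sufficiently large number fields: those containing a primitive `M`-th root of unity). -/
theorem jInputsC_exists (M : ℕ) [NeZero M] {ℓ : ℕ} [Fact ℓ.Prime] (hℓM : ¬ ℓ ∣ M)
    (A : ValuationSubring Qb) (hA : A.LiesOverPrime ℓ) (p : ℕ) :
    ∃ S₀ : Finset Qb, ∀ (E : IntermediateField ℚ Qb) [FiniteDimensional ℚ E]
      [IsDiscreteValuationRing (OE A E)], (∀ s ∈ S₀, s ∈ E) → JInputsC M (OE A E) E p := by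
  have hℓp : ℓ.Prime := Fact.out
  have : NeZero (M : Qb) := ⟨Nat.cast_ne_zero.mpr (NeZero.ne M)⟩
  obtain ⟨z, hz⟩ := HasEnoughRootsOfUnity.exists_primitiveRoot Qb M
  have hMℓ : Nat.Coprime M ℓ := Nat.coprime_comm.mp ((Nat.Prime.coprime_iff_not_dvd hℓp).mpr hℓM)
  exact ⟨{z}, fun E _ _ hE =>
    JInputsAll.jInputsC_OE M A E hA hMℓ hz (hE z (Finset.mem_singleton_self z)) p⟩

/-- **`K1Modular N A p` for every prime `ℓ ∤ N`, every valuation ring `A` of `ℚ̄` over `ℓ` and
every prime `p ≠ ℓ`.** -/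
theorem k1Modular (N : ℕ) [NeZero N] {ℓ : ℕ} [Fact ℓ.Prime] (hℓN : ¬ ℓ ∣ N)
    (A : ValuationSubring Qb) (hA : A.LiesOverPrime ℓ) (p : ℕ) (hp : p.Prime) (hpℓ : p ≠ ℓ) :
    K1Modular N A p :=
  Fermat.Agent.S18.K1Aux.k1Modular_of_cases N hℓN A p hp hpℓ
    (fun h3 => k1Modular_of_jInputs A N hA h3 p hp hpℓ (jInputsC_exists N hℓN A hA p))
    (fun M _ h2M hℓM hℓ2 =>
      Haupt.K1.k1Modular_of_jInputs_two A M h2M hA hℓ2 p hp hpℓ (jInputsC_exists M hℓM A hA p))
    (fun M _ h3M hℓM hℓ3 =>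
      Haupt.K1.k1Modular_of_jInputs_three A M h3M hA hℓ3 p hp hpℓ (jInputsC_exists M hℓM A hA p))

end Fermat.Agent.S30.E2.K1All
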